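import Fermat.Agent.KlingenRay.Character
import Fermat.Agent.HeckeCharFE.Primitive
import Fermat.Agent.SiegelKlingen.Values

/-!
# The values at `1 - k` of every ray class character

For `k ≥ 3` the functional equation carries the value at `k` to the value at `1 - k` of any
continuation of the L-series: it lies in the field of the character, an automorphism of `ℂ` acts
on it through the character, and it vanishes exactly when the signs are not those of `k`.
-/

set_option autoImplicit false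
set_option linter.unusedSectionVars false
set_option linter.style.haveILetI false

noncomputable section

open NumberField InfinitePlace IsDedekindDomain Module Filter Complex
open scoped Real nonZeroDivisors Classical Topology

namespace FA.KlingenRay

open FA.HeckeFE FA.SiegelKlingen FA.HeckeCharFE
open FA.Hecke (IsRayChar IsNontrivial heckeL fPow logF eq_one_of_not_isNontrivial heckeL_of_trivial)
open FA.PrimeIdeal (primePow)

variable {K : Type*} [Field K] [NumberField K]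
variable {𝔪 𝔣 : Ideal (𝓞 K)} {f g : Ideal (𝓞 K) →* ℂ} {S : Finset (InfinitePlace K)}

/-- A continuation of the L-series, holomorphic outside `1`. -/
def IsLExt (f : Ideal (𝓞 K) →* ℂ) (Z : ℂ → ℂ) : Prop :=
  DifferentiableOn ℂ Z {1}ᶜ ∧ ∀ s : ℂ, 1 < s.re → Z s = heckeL f s

/-- There is at most one continuation. -/
theorem IsLExt.unique {Z Z' : ℂ → ℂ} (hZ : IsLExt f Z) (hZ' : IsLExt f Z') {s : ℂ} (hs : s ≠ 1) :
    Z s = Z' s := by
  have hopen : IsOpen ({1}ᶜ : Set ℂ) := isOpen_compl_singleton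
  refine (hZ.1.analyticOnNhd hopen).eqOn_of_preconnected_of_eventuallyEq
    (hZ'.1.analyticOnNhd hopen)
    (isConnected_compl_singleton_of_one_lt_rank (by simp) 1).isPreconnected
    (z₀ := 2) (by simp) ?_ hs
  filter_upwards [(isOpen_lt continuous_const Complex.continuous_re).mem_nhds
    (show (1 : ℝ) < (2 : ℂ).re by norm_num)] with t ht
  rw [hZ.2 t ht, hZ'.2 t ht]

theorem twist_ray (h : IsRayChar 𝔪 f) (σ : ℂ →+* ℂ) : IsRayChar 𝔪 (twistChar σ f) where
  ne_bot := h.ne_bot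
  ne_zero_iff I hI := by
    rw [MonoidHom.comp_apply]
    exact (map_ne_zero σ).trans (h.ne_zero_iff I hI)
  ray x h0 h1 h2 := by
    rw [MonoidHom.comp_apply, h.ray x h0 h1 h2]
    exact map_one σ

theorem twist_nontrivial (h : IsNontrivial f) (σ : ℂ →+* ℂ) : IsNontrivial (twistChar σ f) := by
  obtain ⟨I, hI, h0, h1⟩ := h
  exact ⟨I, hI, (map_ne_zero σ).2 h0, fun e => h1 (σ.injective (e.trans (map_one σ).symm))⟩

theorem twist_trivial (h : ¬IsNontrivial f) (σ : ℂ →+* ℂ) : ¬IsNontrivial (twistChar σ f) :=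
  fun ⟨I, hI, h0, h1⟩ => h1 (by
    show σ (f I) = 1
    rw [eq_one_of_not_isNontrivial h hI fun e => h0 (by show σ (f I) = 0; rw [e, map_zero]),
      map_one])

theorem zeroSet_twist (h : IsRayChar 𝔪 f) (σ : ℂ →+* ℂ) (h' : IsRayChar 𝔪 (twistChar σ f)) :
    h'.finite_zero.toFinset = h.finite_zero.toFinset := by
  ext v
  simp only [Set.Finite.mem_toFinset, Set.mem_ofPred_eq, MonoidHom.comp_apply]
  exact map_eq_zero σ

/-- **The Euler factors of an induced character.** -/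
theorem heckeL_of_induced (h : IsRayChar 𝔪 f) (hg : IsRayChar 𝔣 g)
    (hgf : ∀ I : Ideal (𝓞 K), I ≠ ⊥ → I ⊔ 𝔪 = ⊤ → g I = f I) {s : ℂ} (hs : 1 < s.re) :
    heckeL f s = heckeL g s * ∏ v ∈ h.finite_zero.toFinset, (1 - fPow g s v) := by
  set T := h.finite_zero.toFinset
  have hd : ∀ v, v ∉ T → fPow f s v = fPow g s v := fun v hv => by
    have h0 : f v.asIdeal ≠ 0 := fun e => hv (h.finite_zero.mem_toFinset.mpr e)
    rw [fPow, fPow, hgf _ v.ne_bot ((h.ne_zero_iff _ v.ne_bot).1 h0)]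
  have hsum : logF f s = logF g s + ∑ v ∈ T,
      (-Complex.log (1 - fPow f s v) - -Complex.log (1 - fPow g s v)) := by
    rw [logF, logF, ← sub_eq_iff_eq_add', ← (h.summable_logTerm hs).tsum_sub
      (hg.summable_logTerm hs)]
    exact tsum_eq_sum fun v hv => by rw [hd v hv, sub_self]
  rw [← h.exp_logF hs, hsum, Complex.exp_add, hg.exp_logF hs, Complex.exp_sum]
  refine congrArg _ (Finset.prod_congr rfl fun v hv => ?_)
  rw [show fPow f s v = 0 by rw [fPow, h.finite_zero.mem_toFinset.mp hv, zero_mul], sub_zero,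
    Complex.log_one, neg_zero, zero_sub, neg_neg, Complex.exp_log (Complex.slitPlane_ne_zero
      (FA.PrimeIdeal.one_sub_mem_slitPlane (hg.norm_fPow_le_half hs.le v)))]

theorem differentiable_factors (g : Ideal (𝓞 K) →* ℂ) (T : Finset (HeightOneSpectrum (𝓞 K))) :
    Differentiable ℂ fun s => ∏ v ∈ T, (1 - fPow g s v) :=
  Differentiable.fun_finsetProd fun v _ => ((differentiable_neg.const_cpow
    (Or.inl (Nat.cast_ne_zero.mpr (zero_lt_two.trans_le
      (FA.Ext.two_le_absNorm v)).ne'))).const_mul _).const_sub 1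

theorem primePow_one_sub (v : HeightOneSpectrum (𝓞 K)) {k : ℕ} (hk : 1 ≤ k) :
    primePow (1 - (k : ℂ)) v = (Ideal.absNorm v.asIdeal : ℂ) ^ (k - 1) := by
  rw [primePow, show -(1 - (k : ℂ)) = ((k - 1 : ℕ) : ℂ) by rw [Nat.cast_sub hk]; push_cast; ring,
    cpow_natCast]

theorem factors_galois (σ : ℂ →+* ℂ) (g : Ideal (𝓞 K) →* ℂ)
    (T : Finset (HeightOneSpectrum (𝓞 K))) {k : ℕ} (hk : 1 ≤ k) :
    σ (∏ v ∈ T, (1 - fPow g (1 - (k : ℂ)) v)) =
      ∏ v ∈ T, (1 - fPow (twistChar σ g) (1 - (k : ℂ)) v) := by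
  rw [map_prod]
  refine Finset.prod_congr rfl fun v _ => ?_
  rw [fPow, fPow, primePow_one_sub v hk, map_sub, map_one, map_mul, map_pow, map_natCast]
  rfl

theorem factors_ne_zero (hg : IsRayChar 𝔣 g) (T : Finset (HeightOneSpectrum (𝓞 K))) {k : ℕ}
    (hk : 2 ≤ k) : (∏ v ∈ T, (1 - fPow g (1 - (k : ℂ)) v)) ≠ 0 := by
  refine Finset.prod_ne_zero_iff.2 fun v _ e => ?_
  rw [sub_eq_zero, fPow, primePow_one_sub v (by omega)] at e
  rcases zero_or_root hg v.asIdeal with h0 | ⟨M, hM, hM'⟩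
  · rw [h0, zero_mul] at e
    exact one_ne_zero e
  · have e' := congrArg (fun z : ℂ => ‖z‖) e
    simp only [norm_one, norm_mul, norm_pow, Complex.norm_natCast,
      Complex.norm_eq_one_of_pow_eq_one hM' hM.ne', one_mul] at e'
    have h2 : (2 : ℝ) ≤ (Ideal.absNorm v.asIdeal : ℝ) := by
      exact_mod_cast FA.Ext.two_le_absNorm v
    exact absurd e'.symm (one_lt_pow₀ (by linarith) (by omega)).ne'

variable (K) in
/-- The inverse of the completing factor of a totally real field, an entire function. -/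
def invFac (𝔪 : Ideal (𝓞 K)) (S : Finset (InfinitePlace K)) (s : ℂ) : ℂ :=
  (((discr K).natAbs * Ideal.absNorm 𝔪 : ℕ) : ℂ) ^ (-(s / 2)) *
    ((Gammaℝ s)⁻¹ ^ (nrRealPlaces K - S.card) * (Gammaℝ (s + 1))⁻¹ ^ S.card)

/-- The L-series of a primitive character, continued. -/
def primExt (h : HasSigns 𝔪 f S) (hp : IsPrimitiveChar 𝔪 f) (s : ℂ) : ℂ :=
  invFac K 𝔪 S s * h.completedL hp s

theorem differentiable_primExt (h : HasSigns 𝔪 f S) (hp : IsPrimitiveChar 𝔪 f) :
    Differentiable ℂ (primExt h hp) := by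
  have hD : (((discr K).natAbs * Ideal.absNorm 𝔪 : ℕ) : ℂ) ≠ 0 := Nat.cast_ne_zero.2 (mul_ne_zero
    (Int.natAbs_ne_zero.2 (discr_ne_zero K)) fun h0 => h.ne_bot (Ideal.absNorm_eq_zero_iff.1 h0))
  refine (((differentiable_id.div_const 2).neg.const_cpow (Or.inl hD)).mul
    ((differentiable_Gammaℝ_inv.pow _).mul (Differentiable.pow ?_ _))).mul
      (h.differentiable_completedL hp)
  exact differentiable_Gammaℝ_inv.comp (differentiable_id.add_const 1)

section TotallyReal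

variable [IsTotallyReal K] {k N : ℕ}

theorem primExt_eq (h : HasSigns 𝔪 f S) (hp : IsPrimitiveChar 𝔪 f) (hnt : IsNontrivial f) {s : ℂ}
    (hs : 1 < s.re) : primExt h hp s = heckeL f s := by
  have hne := h.charFac_ne_zero (s := s) (by linarith)
  rw [primExt, h.completedL_half hp hnt hs, ← mul_assoc,
    show invFac K 𝔪 S s = (charFac K 𝔪 S s)⁻¹ by
      rw [invFac, charFac, IsTotallyReal.nrComplexPlaces_eq_zero, pow_zero, mul_one, cpow_neg,
        mul_inv, mul_inv, inv_pow, inv_pow],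
    inv_mul_cancel₀ hne, one_mul]

/-- The Gamma factors at `1 - k` and `k` leave `2 (-1) ^ k (k - 1)!` at each place. -/
theorem invFac_parity (hpar : HasParity S k) (hk : 1 ≤ k) :
    (Gammaℝ (1 - (k : ℂ)))⁻¹ ^ (nrRealPlaces K - S.card) *
        (Gammaℝ (1 - (k : ℂ) + 1))⁻¹ ^ S.card *
      (Gammaℝ (k : ℂ) ^ (nrRealPlaces K - S.card) * Gammaℝ ((k : ℂ) + 1) ^ S.card) *
      (-I) ^ S.card * (-(2 * (π : ℂ) * I)) ^ (k * finrank ℚ K) =
    (2 * (-1) ^ k * ((k - 1).factorial : ℂ)) ^ finrank ℚ K := by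
  obtain ⟨n, hn⟩ : ∃ n, n = nrRealPlaces K := ⟨_, rfl⟩
  rw [IsTotallyReal.finrank, ← hn]
  have hne : ∀ j : ℕ, (k : ℂ) ≠ -(j : ℂ) := fun j e => by
    have e' := congrArg Complex.re e
    simp only [natCast_re, neg_re] at e'
    have : (1 : ℝ) ≤ k := by exact_mod_cast hk
    linarith [Nat.cast_nonneg (α := ℝ) j]
  have hC : Gammaℂ (k : ℂ) = 2 * ((k - 1).factorial : ℂ) / (2 * (π : ℂ)) ^ k := by
    obtain ⟨j, rfl⟩ : ∃ j, k = j + 1 := ⟨k - 1, by omega⟩
    rw [Gammaℂ_def, cpow_neg, cpow_natCast, Nat.add_sub_cancel, Nat.cast_add, Nat.cast_one,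
      Complex.Gamma_nat_eq_factorial]
    ring
  have h2π : (2 * (π : ℂ)) ≠ 0 := mul_ne_zero two_ne_zero (ofReal_ne_zero.2 Real.pi_ne_zero)
  have hp : (-(2 * (π : ℂ) * I)) ^ (k * n) = ((2 * (π : ℂ)) ^ k * (-I) ^ k) ^ n := by
    rw [pow_mul, ← mul_pow, neg_mul_eq_mul_neg]
  rw [hp]
  rcases hpar with ⟨hev, hS⟩ | ⟨hodd, hS⟩
  · obtain ⟨t, rfl⟩ := hev.two_dvd
    have hR : Gammaℝ ((2 * t : ℕ) : ℂ) ≠ 0 :=
      Gammaℝ_ne_zero_of_re_pos (by rw [natCast_re]; exact_mod_cast (by omega : 0 < 2 * t))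
    have hcos : Complex.cos (π * ((2 * t : ℕ) : ℂ) / 2) = (-1 : ℂ) ^ t := by
      rw [show (π : ℂ) * ((2 * t : ℕ) : ℂ) / 2 = ((t * π : ℝ) : ℂ) by push_cast; ring,
        ← ofReal_cos, Real.cos_nat_mul_pi]
      push_cast
      rfl
    rw [hS, Finset.card_empty, Nat.sub_zero, pow_zero, pow_zero, pow_zero, mul_one, mul_one,
      mul_one, inv_Gammaℝ_one_sub hne, hcos, hC, ← mul_pow, ← mul_pow]
    congr 1
    rw [pow_mul (-I), neg_sq, I_sq, pow_mul (-1 : ℂ) 2, neg_one_sq, one_pow]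
    have hsq : ((-1 : ℂ) ^ t) * (-1) ^ t = 1 := by rw [← mul_pow]; norm_num
    field_simp
    linear_combination ((2 * t - 1).factorial : ℂ) * hsq
  · obtain ⟨t, rfl⟩ := hodd
    have hR : Gammaℝ (((2 * t + 1 : ℕ) : ℂ) + 1) ≠ 0 := Gammaℝ_ne_zero_of_re_pos (by
      rw [add_re, natCast_re, one_re]
      positivity)
    have hsin : Complex.sin (π * ((2 * t + 1 : ℕ) : ℂ) / 2) = (-1 : ℂ) ^ t := by
      rw [show (π : ℂ) * ((2 * t + 1 : ℕ) : ℂ) / 2 = ((t * π : ℝ) : ℂ) + (π : ℂ) / 2 by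
        push_cast; ring, Complex.sin_add_pi_div_two, ← ofReal_cos, Real.cos_nat_mul_pi]
      push_cast
      rfl
    rw [hS, Finset.card_univ, card_eq_nrRealPlaces_add_nrComplexPlaces,
      IsTotallyReal.nrComplexPlaces_eq_zero, Nat.add_zero, ← hn, Nat.sub_self, pow_zero, pow_zero,
      one_mul, one_mul, sub_add_eq_add_sub, one_add_one_eq_two, inv_Gammaℝ_two_sub hne, hsin, hC,
      ← mul_pow, ← mul_pow, ← mul_pow]
    congr 1
    rw [pow_succ (-I), pow_mul (-I), neg_sq, I_sq, pow_succ (-1 : ℂ), pow_mul (-1 : ℂ) 2,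
      neg_one_sq, one_pow, one_mul]
    have hsq : ((-1 : ℂ) ^ t) * (-1) ^ t = 1 := by rw [← mul_pow]; norm_num
    field_simp
    linear_combination ((2 * t + 1 - 1).factorial : ℂ) *
      (((-1 : ℂ) ^ t * (-1) ^ t) * I_sq - hsq)

/-- The rational factor of the functional equation. -/
def feFactor (K : Type*) [Field K] [NumberField K] (𝔪 : Ideal (𝓞 K)) (k : ℕ) : ℚ :=
  (((discr K).natAbs * Ideal.absNorm 𝔪 : ℕ) : ℚ) ^ (k - 1) *
    (2 * (-1) ^ k * ((k - 1).factorial : ℚ)) ^ finrank ℚ K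

theorem feFactor_ne_zero (h : 𝔪 ≠ ⊥) (k : ℕ) : feFactor K 𝔪 k ≠ 0 :=
  mul_ne_zero (pow_ne_zero _ (Nat.cast_ne_zero.2 (mul_ne_zero
    (Int.natAbs_ne_zero.2 (discr_ne_zero K)) fun h0 => h (Ideal.absNorm_eq_zero_iff.1 h0))))
    (pow_ne_zero _ (mul_ne_zero (mul_ne_zero two_ne_zero (pow_ne_zero _ (by norm_num)))
      (Nat.cast_ne_zero.2 (Nat.factorial_ne_zero _))))

/-- **The value of a primitive character at `1 - k`, of its parity.** -/
theorem primExt_one_sub (h : HasSigns 𝔪 f S) (hp : IsPrimitiveChar 𝔪 f) (hnt : IsNontrivial f)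
    (hpar : HasParity S k) (hk : 2 ≤ k) (N : ℕ) [NeZero N] :
    primExt h hp (1 - (k : ℂ)) = (feFactor K 𝔪 k : ℂ) * primValue 𝔪 f S k N := by
  have hs : 1 < (k : ℂ).re := by
    rw [natCast_re]
    exact_mod_cast (by omega : 1 < k)
  rw [primExt, h.completedL_one_sub hp hnt, h.conj.completedL_half hp.conj hnt.conj hs,
    heckeL_value h.conj hpar hk N, primValue, piConst, rootC, invFac, charFac,
    IsTotallyReal.nrComplexPlaces_eq_zero, pow_zero, mul_one, feFactor]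
  obtain ⟨D, hD⟩ : ∃ D : ℕ, D = (discr K).natAbs * Ideal.absNorm 𝔪 := ⟨_, rfl⟩
  have hD0 : D ≠ 0 := hD ▸ mul_ne_zero (Int.natAbs_ne_zero.2 (discr_ne_zero K))
    fun h0 => h.ne_bot (Ideal.absNorm_eq_zero_iff.1 h0)
  have hroot : ((√(Ideal.absNorm 𝔪 : ℝ) : ℝ) : ℂ) * ((√|((discr K : ℤ) : ℝ)| : ℝ) : ℂ) =
      (D : ℂ) ^ ((1 : ℂ) / 2) := by
    rw [show |((discr K : ℤ) : ℝ)| = ((discr K).natAbs : ℝ) by rw [Nat.cast_natAbs, Int.cast_abs],
      ← ofReal_mul, ← Real.sqrt_mul (Nat.cast_nonneg _), ← Nat.cast_mul, mul_comm (Ideal.absNorm 𝔪),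
      ← hD, Real.sqrt_eq_rpow, ofReal_cpow (Nat.cast_nonneg _), ofReal_natCast]
    congr 1
    push_cast
    ring
  have hpow : (D : ℂ) ^ (-((1 - (k : ℂ)) / 2)) * (D : ℂ) ^ ((k : ℂ) / 2) =
      (D : ℂ) ^ (k - 1) * (D : ℂ) ^ ((1 : ℂ) / 2) := by
    have hD' : (D : ℂ) ≠ 0 := Nat.cast_ne_zero.2 hD0
    rw [← cpow_natCast (D : ℂ) (k - 1), ← cpow_add _ _ hD', ← cpow_add _ _ hD',
      Nat.cast_sub (by omega : 1 ≤ k)]
    congr 1
    push_cast
    ring
  have hG := invFac_parity (K := K) hpar (by omega : 1 ≤ k)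
  have hr1 : ((√(Ideal.absNorm 𝔪 : ℝ) : ℝ) : ℂ) ≠ 0 := fun e => by
    rw [e, zero_mul] at hroot
    exact cpow_ne_zero_iff.2 (Or.inl (Nat.cast_ne_zero.2 hD0)) hroot.symm
  have hr2 : ((√|((discr K : ℤ) : ℝ)| : ℝ) : ℂ) ≠ 0 := fun e => by
    rw [e, mul_zero] at hroot
    exact cpow_ne_zero_iff.2 (Or.inl (Nat.cast_ne_zero.2 hD0)) hroot.symm
  simp only [Rat.cast_mul, Rat.cast_pow, Rat.cast_natCast, Rat.cast_neg, Rat.cast_one,
    Rat.cast_ofNat, ← hD]
  rw [← hG]
  field_simp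
  rw [← hroot] at hpow
  linear_combination ((Gammaℝ (1 - (k : ℂ)))⁻¹ ^ (nrRealPlaces K - S.card) *
        (Gammaℝ (1 - (k : ℂ) + 1))⁻¹ ^ S.card *
      (Gammaℝ (k : ℂ) ^ (nrRealPlaces K - S.card) * Gammaℝ ((k : ℂ) + 1) ^ S.card) *
      gaussW 𝔪 f S * valueSum 𝔪 (conjChar f) S k N) * hpow

theorem invFac_eq_zero (𝔪 : Ideal (𝓞 K)) (hpar : ¬HasParity S k) (hk : 2 ≤ k) :
    invFac K 𝔪 S (1 - (k : ℂ)) = 0 := by
  rw [invFac]
  refine mul_eq_zero_of_right _ ?_
  rcases Nat.even_or_odd k with hev | hodd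
  · have hS : S.card ≠ 0 := fun e => hpar (Or.inl ⟨hev, Finset.card_eq_zero.1 e⟩)
    obtain ⟨t, rfl⟩ := hev.two_dvd
    have hz : Gammaℝ (1 - ((2 * t : ℕ) : ℂ) + 1) = 0 :=
      Gammaℝ_eq_zero_iff.2 ⟨t - 1, by rw [Nat.cast_sub (by omega : 1 ≤ t)]; push_cast; ring⟩
    rw [hz, inv_zero, zero_pow hS, mul_zero]
  · have hS : nrRealPlaces K - S.card ≠ 0 := by
      have hlt : S.card < Fintype.card (InfinitePlace K) :=
        Finset.card_lt_univ_of_notMem (s := S)
          (Classical.choose_spec (not_forall.1 fun hall => hpar (Or.inr ⟨hodd,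
            Finset.eq_univ_of_forall hall⟩)))
      rw [card_eq_nrRealPlaces_add_nrComplexPlaces, IsTotallyReal.nrComplexPlaces_eq_zero,
        Nat.add_zero] at hlt
      omega
    obtain ⟨t, rfl⟩ := hodd
    have hz : Gammaℝ (1 - ((2 * t + 1 : ℕ) : ℂ)) = 0 :=
      Gammaℝ_eq_zero_iff.2 ⟨t, by push_cast; ring⟩
    rw [hz, inv_zero, zero_pow hS, zero_mul]

/-- **Equivariance for a primitive character.** -/
theorem primExt_galois (h : HasSigns 𝔪 f S) (hp : IsPrimitiveChar 𝔪 f) (hnt : IsNontrivial f)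
    (hk : 3 ≤ k) (σ : ℂ →+* ℂ) : σ (primExt h hp (1 - (k : ℂ))) =
      primExt (twist_signs h σ) (twist_prim hp σ) (1 - (k : ℂ)) := by
  have : NeZero (Ideal.absNorm 𝔪) := ⟨fun e => h.ne_bot (Ideal.absNorm_eq_zero_iff.1 e)⟩
  by_cases hpar : HasParity S k
  · rw [primExt_one_sub h hp hnt hpar (by omega) (Ideal.absNorm 𝔪),
      primExt_one_sub (twist_signs h σ) _ (twist_nontrivial hnt σ) hpar (by omega)
        (Ideal.absNorm 𝔪), map_mul, map_ratCast,
      primValue_galois h hpar hk σ (Ideal.absNorm_mem 𝔪)]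
  · rw [primExt, primExt, invFac_eq_zero 𝔪 hpar (by omega), zero_mul, zero_mul, map_zero]

theorem primExt_ne_zero (h : HasSigns 𝔪 f S) (hp : IsPrimitiveChar 𝔪 f) (hnt : IsNontrivial f)
    (hpar : HasParity S k) (hk : 2 ≤ k) : primExt h hp (1 - (k : ℂ)) ≠ 0 := by
  have : NeZero (Ideal.absNorm 𝔪) := ⟨fun e => h.ne_bot (Ideal.absNorm_eq_zero_iff.1 e)⟩
  rw [primExt_one_sub h hp hnt hpar hk (Ideal.absNorm 𝔪), primValue]
  refine mul_ne_zero (Rat.cast_ne_zero.2 (feFactor_ne_zero h.ne_bot k)) (mul_ne_zero ?_ ?_)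
  · intro e
    have e' := h.norm_gaussW hp hnt
    rw [e, norm_zero] at e'
    exact (Real.sqrt_pos.2 (absNorm_pos' h.ne_bot)).ne e'
  · intro e
    have hs : 1 < (k : ℂ).re := by
      rw [natCast_re]
      exact_mod_cast (by omega : 1 < k)
    refine h.conj.ray.heckeL_ne_zero hs ?_
    rw [heckeL_value h.conj hpar hk (Ideal.absNorm 𝔪), e, mul_zero]

/-! ### Every character -/

/-- The value at `1 - k` of the zeta function of the field. -/
theorem exists_extension_eq (hk : 3 ≤ k) : ∃ r : ℚ, extension K (1 - (k : ℂ)) = (r : ℂ) ∧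
    (r = 0 ↔ Odd k) := by
  rcases Nat.even_or_odd k with hev | hodd
  · have h4 : 4 ≤ k := by obtain ⟨t, rfl⟩ := hev.two_dvd; omega
    obtain ⟨r, h0, hr⟩ := extension_mem (K := K) hev (by omega)
      (dedekindZeta_mem hev (by omega) (classZ_mem_four hev h4))
    exact ⟨r, hr, iff_of_false h0 (Nat.not_odd_iff_even.2 hev)⟩
  · refine ⟨0, ?_, iff_of_true rfl hodd⟩
    obtain ⟨t, rfl⟩ := hodd
    obtain ⟨j, rfl⟩ : ∃ j, t = j + 1 := ⟨t - 1, by omega⟩
    rw [show 1 - ((2 * (j + 1) + 1 : ℕ) : ℂ) = -(2 * ((j : ℂ) + 1)) by push_cast; ring,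
      extension_neg_even, Rat.cast_zero]

theorem isLExt_trivial (h : IsRayChar 𝔪 f) (ht : ¬IsNontrivial f) : IsLExt f fun s =>
    extension K s * ∏ v ∈ h.finite_zero.toFinset, (1 - fPow (1 : Ideal (𝓞 K) →* ℂ) s v) := by
  refine ⟨(differentiableOn_extension K).mul (differentiable_factors _ _).differentiableOn,
    fun s hs => ?_⟩
  simp only [heckeL_of_trivial h ht hs, extension_eq_dedekindZeta K hs, fPow, MonoidHom.one_apply,
    one_mul]

theorem isLExt_induced (h : IsRayChar 𝔪 f) (hS : HasSigns 𝔣 g S) (hp : IsPrimitiveChar 𝔣 g)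
    (hnt : IsNontrivial g) (hgf : ∀ I : Ideal (𝓞 K), I ≠ ⊥ → I ⊔ 𝔪 = ⊤ → g I = f I) :
    IsLExt f fun s => primExt hS hp s * ∏ v ∈ h.finite_zero.toFinset, (1 - fPow g s v) :=
  ⟨((differentiable_primExt hS hp).mul (differentiable_factors _ _)).differentiableOn,
    fun s hs => by simp only [heckeL_of_induced h hS.ray hgf hs, primExt_eq hS hp hnt hs]⟩

/-- **Continuation.** -/
theorem exists_isLExt (h : IsRayChar 𝔪 f) : ∃ Z, IsLExt f Z := by
  by_cases hnt : IsNontrivial f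
  · obtain ⟨𝔣, g, -, hg, hp, hgn, hgf⟩ := exists_primitive h
    obtain ⟨S, hS⟩ := exists_hasSigns hg
    exact ⟨_, isLExt_induced h hS hp (hgn hnt) hgf⟩
  · exact ⟨_, isLExt_trivial h hnt⟩

theorem one_sub_ne_one (hk : 1 ≤ k) : (1 : ℂ) - (k : ℂ) ≠ 1 := fun e => by
  have : (k : ℂ) = 0 := by linear_combination -e
  rw [Nat.cast_eq_zero] at this
  omega

/-- **The automorphisms of `ℂ` act through the character.** -/
theorem value_galois (h : IsRayChar 𝔪 f) (hk : 3 ≤ k) (σ : ℂ →+* ℂ) {Z Z' : ℂ → ℂ}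
    (hZ : IsLExt f Z) (hZ' : IsLExt (twistChar σ f) Z') :
    σ (Z (1 - (k : ℂ))) = Z' (1 - (k : ℂ)) := by
  have h1 := one_sub_ne_one (k := k) (by omega)
  by_cases hnt : IsNontrivial f
  · obtain ⟨𝔣, g, -, hg, hp, hgn, hgf⟩ := exists_primitive h
    obtain ⟨S, hS⟩ := exists_hasSigns hg
    rw [hZ.unique (isLExt_induced h hS hp (hgn hnt) hgf) h1, hZ'.unique
      (isLExt_induced (twist_ray h σ) (twist_signs hS σ) (twist_prim hp σ)
        (twist_nontrivial (hgn hnt) σ) fun I hI hc => congrArg σ (hgf I hI hc)) h1,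
      zeroSet_twist h σ (twist_ray h σ), map_mul, primExt_galois hS hp (hgn hnt) hk σ,
      factors_galois σ g _ (by omega)]
  · rw [hZ.unique (isLExt_trivial h hnt) h1,
      hZ'.unique (isLExt_trivial (twist_ray h σ) (twist_trivial hnt σ)) h1,
      zeroSet_twist h σ (twist_ray h σ),
      map_mul, factors_galois σ 1 _ (by omega),
      show twistChar σ (1 : Ideal (𝓞 K) →* ℂ) = 1 from MonoidHom.ext fun _ => map_one σ]
    obtain ⟨r, hr, -⟩ := exists_extension_eq (K := K) hk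
    rw [hr, map_ratCast]

/-- **The value lies in the field of the character.** -/
theorem value_mem (h : IsRayChar 𝔪 f) (hk : 3 ≤ k) {Z : ℂ → ℂ} (hZ : IsLExt f Z) :
    Z (1 - (k : ℂ)) ∈ IntermediateField.adjoin ℚ (Set.range f) := by
  refine mem_of_forall_fixed _ _ fun σ hσ => ?_
  have e : twistChar σ.toRingHom f = f := MonoidHom.ext fun I =>
    hσ _ (IntermediateField.subset_adjoin ℚ _ ⟨I, rfl⟩)
  exact value_galois h hk σ.toRingHom hZ (e.symm ▸ hZ)

/-- **It vanishes exactly when the signs are not those of `k`.** -/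
theorem value_eq_zero_iff (h : HasSigns 𝔪 f S) (hk : 3 ≤ k) {Z : ℂ → ℂ} (hZ : IsLExt f Z) :
    Z (1 - (k : ℂ)) = 0 ↔ ¬HasParity S k := by
  have h1 := one_sub_ne_one (k := k) (by omega)
  by_cases hnt : IsNontrivial f
  · obtain ⟨𝔣, g, hle, hg, hp, hgn, hgf⟩ := exists_primitive h.ray
    obtain ⟨S', hS⟩ := exists_hasSigns hg
    obtain rfl : S = S' := hasSigns_unique h
      { ray := h.ray
        real := hS.real
        sgn := fun x h0 hx => by
          rw [← hgf _ (by simpa using h0) (by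
            rw [FA.Hecke.span_sup_congr hx, Ideal.span_singleton_one, top_sup_eq])]
          exact hS.sgn x h0 (hle hx) }
    rw [hZ.unique (isLExt_induced h.ray hS hp (hgn hnt) hgf) h1, mul_eq_zero,
      or_iff_left (factors_ne_zero hg _ (by omega))]
    refine ⟨fun e hpar => primExt_ne_zero hS hp (hgn hnt) hpar (by omega) e, fun hpar => ?_⟩
    rw [primExt, invFac_eq_zero _ hpar (by omega), zero_mul]
  · obtain rfl : S = ∅ := hasSigns_unique h
      { ray := h.ray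
        real := by simp
        sgn := fun x h0 hx => by
          rw [eq_one_of_not_isNontrivial hnt (by simpa using h0) ((h.ray.ne_zero_iff _
            (by simpa using h0)).2 (by
              rw [FA.Hecke.span_sup_congr hx, Ideal.span_singleton_one, top_sup_eq]))]
          simp [sgnS] }
    obtain ⟨r, hr, hr0⟩ := exists_extension_eq (K := K) hk
    rw [hZ.unique (isLExt_trivial h.ray hnt) h1, hr, mul_eq_zero,
      or_iff_left (factors_ne_zero IsRayChar.one _ (by omega)), Rat.cast_eq_zero, hr0, HasParity]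
    refine ⟨fun ho hpar => ?_, fun hpar => ?_⟩
    · rcases hpar with ⟨he, -⟩ | ⟨-, hu⟩
      · exact Nat.not_even_iff_odd.2 ho he
      · exact Finset.univ_nonempty.ne_empty hu.symm
    · exact Nat.not_even_iff_odd.1 fun he => hpar (Or.inl ⟨he, rfl⟩)

end TotallyReal

end FA.KlingenRay

end
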