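import Fermat.Agent.KlingenRay.Values
import Fermat.Agent.NaturalChebotarev.RayClass
import Fermat.Agent.Weight1.DensityPairs

/-!
# The partial zeta functions of the narrow ray classes

The characters of the ray class group separate the classes, so each partial zeta function is
continued by the continuations of their L-series, and its value at `1 - k` is fixed by every
automorphism of `ℂ`: it is rational.
-/

set_option autoImplicit false
set_option linter.unusedSectionVars false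

noncomputable section

open NumberField Filter Complex
open scoped nonZeroDivisors Classical

namespace FA.KlingenRay

open FA.Hecke (coprimeIdeals RayClassGroup rayClass rayCharFn rayCharFn_apply isRayChar_rayCharFn
  finite_rayClassGroup heckeL lHom lHom_apply IsRayChar)
open FA.AbelianZeta (normPow)

variable {K : Type*} [Field K] [NumberField K] {𝔪 : Ideal (𝓞 K)}

/-- The zeta function of a narrow ray class. -/
def rayClassZeta (h𝔪 : 𝔪 ≠ ⊥) (γ : RayClassGroup 𝔪) (s : ℂ) : ℂ :=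
  ∑' I : {I : coprimeIdeals 𝔪 // rayClass h𝔪 I = γ},
    ((Ideal.absNorm I.1.1.1 : ℕ) : ℂ) ^ (-s)

/-- A continuation, holomorphic outside `1`. -/
def IsClassExt (h𝔪 : 𝔪 ≠ ⊥) (γ : RayClassGroup 𝔪) (Z : ℂ → ℂ) : Prop :=
  DifferentiableOn ℂ Z {1}ᶜ ∧ ∀ s : ℂ, 1 < s.re → Z s = rayClassZeta h𝔪 γ s

/-- **Orthogonality.** -/
theorem card_mul_rayClassZeta (h𝔪 : 𝔪 ≠ ⊥) (γ : RayClassGroup 𝔪)
    [Fintype (RayClassGroup 𝔪)] [Fintype (RayClassGroup 𝔪 →* ℂˣ)] {s : ℂ} (hs : 1 < s.re) :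
    (Fintype.card (RayClassGroup 𝔪) : ℂ) * rayClassZeta h𝔪 γ s =
      ∑ χ : RayClassGroup 𝔪 →* ℂˣ, (χ γ⁻¹ : ℂ) * heckeL (rayCharFn h𝔪 χ) s := by
  have hsum : ∀ χ : RayClassGroup 𝔪 →* ℂˣ, Summable fun I : (Ideal (𝓞 K))⁰ =>
      (χ γ⁻¹ : ℂ) * lHom (rayCharFn h𝔪 χ) s I := fun χ =>
    ((isRayChar_rayCharFn h𝔪 χ).summable_lHom hs).of_norm.mul_left _
  simp only [heckeL, ← tsum_mul_left]
  rw [← Summable.tsum_finsetSum fun χ _ => hsum χ, rayClassZeta, ← tsum_mul_left]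
  refine (tsum_eq_tsum_of_ne_zero_bij (fun I => I.1.1.1) ?_ ?_ ?_).symm
  · exact fun a b e => Subtype.ext (Subtype.ext (Subtype.ext (Subtype.ext (by simpa using e))))
  · intro I hI
    have hI0 := nonZeroDivisors.coe_ne_zero I
    by_cases hc : I.1 ⊔ 𝔪 = ⊤
    · refine ⟨⟨⟨⟨I, hc⟩, ?_⟩, ?_⟩, rfl⟩
      · by_contra hne
        refine hI ?_
        have e : ∀ χ : RayClassGroup 𝔪 →* ℂˣ, (χ γ⁻¹ : ℂ) * lHom (rayCharFn h𝔪 χ) s I =
            (χ (γ⁻¹ * rayClass h𝔪 ⟨I, hc⟩) : ℂ) * normPow s I := fun χ => by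
          rw [lHom_apply, ← mul_assoc, map_mul, Units.val_mul, ← rayCharFn_apply h𝔪 χ ⟨I, hc⟩]
        simp only [e, ← Finset.sum_mul]
        rw [show ∑ χ : RayClassGroup 𝔪 →* ℂˣ, (χ (γ⁻¹ * rayClass h𝔪 ⟨I, hc⟩) : ℂ) = 0 by
          convert (FA.Weight1.sum_char_apply (U := RayClassGroup 𝔪) _).trans
            (if_neg fun h => hne (inv_mul_eq_one.1 h).symm) using 2
          ext; simp, zero_mul]
      · rw [Function.mem_support]
        exact mul_ne_zero (Nat.cast_ne_zero.2 Fintype.card_ne_zero)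
          (cpow_ne_zero_iff.2 (Or.inl (Nat.cast_ne_zero.2
            (Ideal.absNorm_ne_zero_of_nonZeroDivisors I))))
    · refine absurd ?_ hI
      refine Finset.sum_eq_zero fun χ _ => ?_
      rw [lHom_apply, (isRayChar_rayCharFn h𝔪 χ).eq_zero_of_not hI0 hc, zero_mul, mul_zero]
  · rintro ⟨⟨I, hγ⟩, -⟩
    have e : ∀ χ : RayClassGroup 𝔪 →* ℂˣ, (χ γ⁻¹ : ℂ) * lHom (rayCharFn h𝔪 χ) s I.1 =
        normPow s I.1 := fun χ => by
      rw [lHom_apply, rayCharFn_apply, hγ, ← mul_assoc, ← Units.val_mul, ← map_mul, inv_mul_cancel,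
        map_one, Units.val_one, one_mul]
    simp only [e, Finset.sum_const, Finset.card_univ, nsmul_eq_mul]
    rw [show (Fintype.card (RayClassGroup 𝔪 →* ℂˣ) : ℂ) = Fintype.card (RayClassGroup 𝔪) by
      convert FA.Weight1.sum_char_apply (U := RayClassGroup 𝔪) 1 using 1
      · simp
        exact congrArg (fun i => @Fintype.card _ i) (Subsingleton.elim _ _)
      · simp]
    rfl

theorem twist_rayCharFn (h𝔪 : 𝔪 ≠ ⊥) (σ : ℂ →+* ℂ) (χ : RayClassGroup 𝔪 →* ℂˣ) :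
    twistChar σ (rayCharFn h𝔪 χ) = rayCharFn h𝔪 ((Units.map σ.toMonoidHom).comp χ) := by
  refine MonoidHom.ext fun I => ?_
  show σ (rayCharFn h𝔪 χ I) = rayCharFn h𝔪 _ I
  simp only [rayCharFn, MonoidHom.coe_mk, OneHom.coe_mk]
  split_ifs
  · rfl
  · exact map_zero σ

/-- **Continuation of every partial zeta function.** -/
theorem exists_isClassExt (h𝔪 : 𝔪 ≠ ⊥) (γ : RayClassGroup 𝔪) [IsTotallyReal K] :
    ∃ Z, IsClassExt h𝔪 γ Z := by
  have := finite_rayClassGroup h𝔪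
  have : Fintype (RayClassGroup 𝔪) := Fintype.ofFinite _
  have := FA.Weight1.fintypeDual (U := RayClassGroup 𝔪)
  choose L hL using fun χ : RayClassGroup 𝔪 →* ℂˣ =>
    exists_isLExt (isRayChar_rayCharFn h𝔪 χ)
  refine ⟨fun s => (Fintype.card (RayClassGroup 𝔪) : ℂ)⁻¹ * ∑ χ, (χ γ⁻¹ : ℂ) * L χ s,
    (DifferentiableOn.fun_sum fun χ _ => (hL χ).1.const_mul _).const_mul _, fun s hs => ?_⟩
  simp only [(hL _).2 s hs]
  rw [← card_mul_rayClassZeta h𝔪 γ hs,
    inv_mul_cancel_left₀ (Nat.cast_ne_zero.2 Fintype.card_ne_zero)]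

/-- **The values are rational.** -/
theorem classValue_rational [IsTotallyReal K] (h𝔪 : 𝔪 ≠ ⊥) (γ : RayClassGroup 𝔪) {k : ℕ}
    (hk : 3 ≤ k) {Z : ℂ → ℂ} (hZ : IsClassExt h𝔪 γ Z) : ∃ r : ℚ, Z (1 - (k : ℂ)) = (r : ℂ) := by
  have := finite_rayClassGroup h𝔪
  have : Fintype (RayClassGroup 𝔪) := Fintype.ofFinite _
  have := FA.Weight1.fintypeDual (U := RayClassGroup 𝔪)
  choose L hL using fun χ : RayClassGroup 𝔪 →* ℂˣ =>
    exists_isLExt (isRayChar_rayCharFn h𝔪 χ)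
  have h1 := one_sub_ne_one (k := k) (by omega)
  obtain ⟨W, hW⟩ : ∃ W : ℂ → ℂ, W = fun s =>
      (Fintype.card (RayClassGroup 𝔪) : ℂ)⁻¹ * ∑ χ, (χ γ⁻¹ : ℂ) * L χ s := ⟨_, rfl⟩
  have hW' : DifferentiableOn ℂ W {1}ᶜ :=
    hW ▸ (DifferentiableOn.fun_sum fun χ _ => (hL χ).1.const_mul _).const_mul _
  have hZW : Z (1 - (k : ℂ)) = W (1 - (k : ℂ)) := by
    refine (hZ.1.analyticOnNhd isOpen_compl_singleton).eqOn_of_preconnected_of_eventuallyEq
      (hW'.analyticOnNhd isOpen_compl_singleton)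
      (isConnected_compl_singleton_of_one_lt_rank (by simp) 1).isPreconnected
      (z₀ := 2) (by simp) ?_ h1
    filter_upwards [(isOpen_lt continuous_const Complex.continuous_re).mem_nhds
      (show (1 : ℝ) < (2 : ℂ).re by norm_num)] with t ht
    rw [hZ.2 t ht, hW]
    simp only [(hL _).2 t ht]
    rw [← card_mul_rayClassZeta h𝔪 γ ht,
      inv_mul_cancel_left₀ (Nat.cast_ne_zero.2 Fintype.card_ne_zero)]
  have hfix : ∀ σ : ℂ ≃+* ℂ, σ (W (1 - (k : ℂ))) = W (1 - (k : ℂ)) := fun σ => by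
    simp only [hW, map_mul, map_inv₀, map_natCast, map_sum]
    congr 1
    refine Fintype.sum_equiv (MulEquiv.monoidHomCongrRight
      (Units.mapEquiv σ.toMulEquiv)).toEquiv _ _ fun χ => ?_
    congr 1
    refine value_galois (isRayChar_rayCharFn h𝔪 χ) hk σ.toRingHom (hL χ) ?_
    rw [twist_rayCharFn]
    exact hL _
  obtain ⟨r, hr⟩ := IntermediateField.mem_bot.1
    (mem_of_forall_fixed ⊥ (W (1 - (k : ℂ))) fun σ _ => hfix σ)
  exact ⟨r, by rw [hZW, ← hr, eq_ratCast]⟩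

end FA.KlingenRay

end
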