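import Fermat.Agent.Period.AutC

/-!
# Automorphisms of `ℂ` over a subfield

A complex number fixed by every automorphism of `ℂ` fixing a subfield lies in it, and every
primitive root of unity is carried to each of its powers prime to the order.
-/

set_option autoImplicit false

noncomputable section

namespace FA.KlingenRay

open MvPolynomial

/-- **The fixed field of the automorphisms over a subfield.** -/
theorem mem_of_forall_fixed (F : IntermediateField ℚ ℂ) (z : ℂ)
    (h : ∀ σ : ℂ ≃+* ℂ, (∀ a ∈ F, σ a = a) → σ z = z) : z ∈ F := by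
  let K := algebraicClosure F ℂ
  have : IsAlgClosure F K := algebraicClosure.isAlgClosure F ℂ
  have : IsGalois F K := IsAlgClosure.isGalois F K
  have : Algebra.IsAlgebraic F K := algebraicClosure.isAlgebraic F ℂ
  by_cases hz : IsAlgebraic F z
  · have hzK : z ∈ K := (mem_algebraicClosure_iff' ..).mpr hz.isIntegral
    obtain ⟨x, hx⟩ : ∃ x : K, x = ⟨z, hzK⟩ := ⟨_, rfl⟩
    by_contra hne
    obtain ⟨σ₀, hσ₀⟩ : ∃ σ₀ : K ≃ₐ[F] K, σ₀ x ≠ x := by
      by_contra! hfix
      have hb : x ∈ (⊥ : IntermediateField F K) := (InfiniteGalois.mem_bot_iff_fixed x).mpr hfix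
      obtain ⟨r, hr⟩ := IntermediateField.mem_bot.mp hb
      refine hne ?_
      have e := congrArg Subtype.val hr
      rw [hx] at e
      exact (show (r : ℂ) = z from e) ▸ r.2
    obtain ⟨ι, v, hv⟩ := exists_isTranscendenceBasis' K ℂ
    obtain ⟨σ, hσ⟩ := FA.Period.exists_ringEquiv_extending v hv
      (MvPolynomial.mapEquiv ι σ₀.toRingEquiv)
    have h1 : ∀ y : K, σ (y : ℂ) = ((σ₀ y : K) : ℂ) := fun y => by
      have e := hσ (C y)
      rw [show MvPolynomial.mapEquiv ι σ₀.toRingEquiv (C y) = C (σ₀ y) by simp, aeval_C, aeval_C]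
        at e
      exact e
    have h2 := h σ fun a ha => by
      have e := h1 (algebraMap F K ⟨a, ha⟩)
      rw [AlgEquiv.commutes] at e
      exact e
    have h3 := h1 x
    rw [hx] at h3
    exact hσ₀ (by rw [hx]; exact Subtype.ext (h3.symm.trans h2))
  · have hzK : Transcendental K z := fun halg => hz <| halg.restrictScalars F
    have hs : AlgebraicIndepOn K id ({z} : Set ℂ) := by
      have : Unique ({z} : Set ℂ) := Set.uniqueSingleton z
      refine algebraicIndependent_unique_type_iff.mpr ?_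
      rw [show (default : ({z} : Set ℂ)) = ⟨z, rfl⟩ from Subsingleton.elim _ _]
      exact hzK
    obtain ⟨t, hzt, ht⟩ := exists_isTranscendenceBasis_superset hs
    obtain ⟨σ, hσ⟩ :=
      FA.Period.exists_ringEquiv_extending _ ht (FA.Period.shiftVars t K).toRingEquiv
    have hfix : ∀ a ∈ F, σ a = a := fun a ha => by
      have e := hσ (C (algebraMap F K ⟨a, ha⟩))
      simp [FA.Period.shiftVars] at e
      exact e
    have hzt' : z ∈ t := hzt rfl
    have h1 := hσ (X ⟨z, hzt'⟩)
    simp [FA.Period.shiftVars, h σ hfix] at h1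

/-- An automorphism of `ℂ` raises an `N`-th root of unity to a power prime to `N`. -/
theorem exists_exponent (σ : ℂ →+* ℂ) (N : ℕ) [NeZero N] :
    ∃ t t' : ℕ, t * t' ≡ 1 [MOD N] ∧ ∀ z : ℂ, z ^ N = 1 → σ z = z ^ t := by
  have hz : IsPrimitiveRoot (Complex.exp (2 * Real.pi * Complex.I / N)) N :=
    Complex.isPrimitiveRoot_exp N (NeZero.ne N)
  obtain ⟨ζ, hζ⟩ : ∃ ζ : ℂ, ζ = Complex.exp (2 * Real.pi * Complex.I / N) := ⟨_, rfl⟩
  rw [← hζ] at hz
  have hσz : IsPrimitiveRoot (σ ζ) N := hz.map_of_injective σ.injective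
  obtain ⟨t, ht, hcop, e⟩ := hz.isPrimitiveRoot_iff.1 hσz
  refine ⟨t, ((t : ZMod N)⁻¹).val, ?_, fun z hzN => ?_⟩
  · rw [← ZMod.natCast_eq_natCast_iff, Nat.cast_mul, Nat.cast_one, ZMod.natCast_zmod_val,
      ZMod.coe_mul_inv_eq_one t hcop]
  · obtain ⟨i, -, rfl⟩ := hz.eq_pow_of_pow_eq_one hzN
    rw [map_pow, ← e, ← pow_mul, ← pow_mul, mul_comm]

end FA.KlingenRay

end
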