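import Fermat.Agent.KlingenRay.Expansion
import Fermat.Agent.HeckeCharFE.Continuation
import Fermat.Agent.HeckeFE.Extension

/-!
# The values of a character at positive integers of its parity

For a character of the narrow ray class group whose signs are those of `k` at every real place, the
L-value at `k` is `(-2 π i) ^ (k n) / √|d|` times a combination with rational weights of normalised
values; an automorphism of `ℂ` moves the latter and the Gauss sum by inverse factors.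
-/

set_option autoImplicit false
set_option linter.unusedSectionVars false
set_option linter.style.haveILetI false

noncomputable section

open NumberField InfinitePlace Module Filter Complex
open scoped Real nonZeroDivisors Classical

namespace FA.KlingenRay

open FA.HeckeFE FA.SiegelKlingen FA.HeckeCharFE
open FA.PadicEulerFactor (pMul int_mul_mem)
open FA.Hecke (IsRayChar heckeL classPart)

variable {K : Type*} [Field K] [NumberField K]

/-- The character carried by `σ`. -/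
abbrev twistChar (σ : ℂ →+* ℂ) (f : Ideal (𝓞 K) →* ℂ) : Ideal (𝓞 K) →* ℂ := σ.toMonoidHom.comp f

/-- The signs are those of `k` at every real place. -/
def HasParity (S : Finset (InfinitePlace K)) (k : ℕ) : Prop :=
  Even k ∧ S = ∅ ∨ Odd k ∧ S = Finset.univ

variable {𝔪 : Ideal (𝓞 K)} {f : Ideal (𝓞 K) →* ℂ} {S : Finset (InfinitePlace K)}

theorem map_sgnS (σ : ℂ →+* ℂ) (S : Finset (InfinitePlace K)) (x : K) :
    σ (sgnS S x) = sgnS S x := by
  rw [sgnS, map_prod]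
  refine Finset.prod_congr rfl fun w _ => ?_
  rcases Real.sign_apply_eq (rv w x) with h | h | h <;> simp [h]

/-- A character takes only `0` and roots of unity, at the zero ideal as well. -/
theorem zero_or_root (h : IsRayChar 𝔪 f) (I : Ideal (𝓞 K)) :
    f I = 0 ∨ ∃ M : ℕ, 0 < M ∧ f I ^ M = 1 := by
  obtain ⟨M, hM, hM'⟩ := h.exists_pow_eq_one
  by_cases hI : I = ⊥
  · have e : f I * f I = f I := by rw [← map_mul, hI, Ideal.mul_bot]
    rcases eq_or_ne (f I) 0 with h0 | h0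
    · exact Or.inl h0
    · exact Or.inr ⟨1, one_pos, by rw [pow_one, mul_left_cancel₀ h0 (e.trans (mul_one _).symm)]⟩
  · by_cases hc : I ⊔ 𝔪 = ⊤
    · exact Or.inr ⟨M, hM, hM' I hI hc⟩
    · exact Or.inl (by by_contra h0; exact hc ((h.ne_zero_iff I hI).1 h0))

theorem conj_eq_inv (h : IsRayChar 𝔪 f) (I : Ideal (𝓞 K)) :
    starRingEnd ℂ (f I) = (f I)⁻¹ := by
  rcases zero_or_root h I with h0 | ⟨M, hM, h1⟩
  · rw [h0, map_zero, inv_zero]
  · rw [Complex.inv_def, Complex.normSq_eq_norm_sq,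
      Complex.norm_eq_one_of_pow_eq_one h1 hM.ne', one_pow, inv_one, ofReal_one, mul_one]

theorem twist_signs (h : HasSigns 𝔪 f S) (σ : ℂ →+* ℂ) : HasSigns 𝔪 (twistChar σ f) S where
  ray := {
    ne_bot := h.ray.ne_bot
    ne_zero_iff := fun I hI => by
      rw [MonoidHom.comp_apply]
      exact (map_ne_zero σ).trans (h.ray.ne_zero_iff I hI)
    ray := fun x h0 h1 h2 => by
      rw [MonoidHom.comp_apply, h.ray.ray x h0 h1 h2]
      exact map_one σ }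
  real := h.real
  sgn x h0 h1 := by
    rw [MonoidHom.comp_apply, h.sgn x h0 h1]
    exact map_sgnS σ S _

theorem twist_prim (hp : IsPrimitiveChar 𝔪 f) (σ : ℂ →+* ℂ) :
    IsPrimitiveChar 𝔪 (twistChar σ f) := fun 𝔫 hn => by
  obtain ⟨x, h0, h1, h2, h3, h4⟩ := hp 𝔫 hn
  exact ⟨x, h0, h1, h2, h3, fun he => h4 (σ.injective (he.trans (map_one σ).symm))⟩

theorem twist_conjChar (h : IsRayChar 𝔪 f) (σ : ℂ →+* ℂ)
    (h' : IsRayChar 𝔪 (twistChar σ f)) :
    twistChar σ (conjChar f) = conjChar (twistChar σ f) := MonoidHom.ext fun I => by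
  show σ (starRingEnd ℂ (f I)) = starRingEnd ℂ (twistChar σ f I)
  rw [conj_eq_inv h, conj_eq_inv h', map_inv₀]
  rfl

theorem resFn_twist (σ : ℂ →+* ℂ) (𝔪 : Ideal (𝓞 K)) (f : Ideal (𝓞 K) →* ℂ)
    (S : Finset (InfinitePlace K)) (x : 𝓞 K) :
    resFn 𝔪 (twistChar σ f) S x = σ (resFn 𝔪 f S x) := by
  rw [resFn, resFn, map_mul, map_sgnS]
  rfl

theorem res_twist (σ : ℂ →+* ℂ) (𝔪 : Ideal (𝓞 K)) (f : Ideal (𝓞 K) →* ℂ)
    (S : Finset (InfinitePlace K)) (I : (FractionalIdeal (𝓞 K)⁰ K)ˣ) (x : K) :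
    res 𝔪 (twistChar σ f) S I x = σ (res 𝔪 f S I x) := by
  rw [res, res, apply_ite σ, map_zero, map_mul, map_mul, map_inv₀, map_sgnS, resFn_twist]
  rfl

theorem res_natCast_mul (h : HasSigns 𝔪 f S) (I : (FractionalIdeal (𝓞 K)⁰ K)ˣ) (t : ℕ) {x : K}
    (hx : x ∈ (I : Set K)) :
    res 𝔪 f S I ((t : K) * x) = resFn 𝔪 f S (t : 𝓞 K) * res 𝔪 f S I x := by
  have htx : (t : K) * x ∈ (I : Set K) := by
    have h := Submodule.smul_mem ((I : FractionalIdeal (𝓞 K)⁰ K) : Submodule (𝓞 K) K) (t : 𝓞 K) hx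
    rwa [Algebra.smul_def, map_natCast] at h
  rw [res, res, if_pos hx, if_pos htx, show toInt 𝔪 I ((t : K) * x) = (t : 𝓞 K) * toInt 𝔪 I x from
    RingOfIntegers.coe_injective (by
      have e : ∀ {z : K}, z ∈ (I : Set K) → algebraMap (𝓞 K) K (toInt 𝔪 I z) = gam 𝔪 I * z :=
        fun hz => (toInt_spec 𝔪 hz).1
      rw [map_mul, map_natCast, e htx, e hx]
      ring), h.resFn_mul]
  ring

theorem natCast_coprime {N : ℕ} (hN : (N : 𝓞 K) ∈ 𝔪) {t t' : ℕ} (htt : t * t' ≡ 1 [MOD N]) :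
    Ideal.span {(t : 𝓞 K)} ⊔ 𝔪 = ⊤ ∧ (t : 𝓞 K) * t' - 1 ∈ 𝔪 := by
  obtain ⟨z, hz⟩ := Int.modEq_iff_dvd.1 (Int.natCast_modEq_iff.2 htt.symm)
  have h1 : (t : 𝓞 K) * t' - 1 ∈ 𝔪 := by
    have e := congrArg (Int.cast : ℤ → 𝓞 K) hz
    push_cast at e
    rw [e]
    exact 𝔪.mul_mem_right _ hN
  refine ⟨(Ideal.eq_top_iff_one _).2 ?_, h1⟩
  rw [show (1 : 𝓞 K) = (t : 𝓞 K) * t' - ((t : 𝓞 K) * t' - 1) by ring]
  exact Ideal.sub_mem _ (Submodule.mem_sup_left (Ideal.mem_span_singleton.2 (dvd_mul_right _ _)))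
    (Submodule.mem_sup_right h1)

/-- Inverse residues. -/
theorem conj_resFn_eq (h : HasSigns 𝔪 f S) {N : ℕ} (hN : (N : 𝓞 K) ∈ 𝔪) {t t' : ℕ}
    (htt : t * t' ≡ 1 [MOD N]) :
    starRingEnd ℂ (resFn 𝔪 f S (t : 𝓞 K)) = resFn 𝔪 f S (t' : 𝓞 K) := by
  obtain ⟨hc, h1⟩ := natCast_coprime (𝔪 := 𝔪) hN htt
  have e : resFn 𝔪 f S (t : 𝓞 K) * resFn 𝔪 f S (t' : 𝓞 K) = 1 := by
    rw [← h.resFn_mul, h.resFn_congr (y := 1) h1, h.resFn_one]
  have e' := h.resFn_mul_conj hc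
  calc starRingEnd ℂ (resFn 𝔪 f S (t : 𝓞 K))
      = starRingEnd ℂ (resFn 𝔪 f S (t : 𝓞 K)) *
          (resFn 𝔪 f S (t : 𝓞 K) * resFn 𝔪 f S (t' : 𝓞 K)) := by rw [e, mul_one]
    _ = _ := by rw [← mul_assoc, e', one_mul]

/-- **The Gauss sum under `σ`.** -/
theorem gaussW_galois (h : HasSigns 𝔪 f S) (σ : ℂ →+* ℂ) {N : ℕ} (hN : (N : 𝓞 K) ∈ 𝔪) {t t' : ℕ}
    (htt : t * t' ≡ 1 [MOD N]) (hσ : ∀ z : ℂ, z ^ N = 1 → σ z = z ^ t) :
    σ (gaussW 𝔪 f S) = resFn 𝔪 (twistChar σ f) S (t' : 𝓞 K) * gaussW 𝔪 (twistChar σ f) S := by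
  have h' := twist_signs h σ
  obtain ⟨w, hw⟩ : ∃ w : K,
      w = (gam 𝔪 (dualAt 𝔪 1))⁻¹ * (unitElt 𝔪 (dualAt 𝔪 1) : K) := ⟨_, rfl⟩
  have hwmem : w ∈ (dualAt 𝔪 1 : Set K) := by
    obtain ⟨hγ, -, hJ, -⟩ := intIdeal_spec 𝔪 (dualAt 𝔪 1)
    have hm : (unitElt 𝔪 (dualAt 𝔪 1) : K) ∈
        (intIdeal 𝔪 (dualAt 𝔪 1) : FractionalIdeal (𝓞 K)⁰ K) :=
      (FractionalIdeal.mem_coeIdeal _).2 ⟨_, (unitElt_spec h.ne_bot (dualAt 𝔪 1)).1, rfl⟩
    rw [hJ, FractionalIdeal.mem_singleton_mul] at hm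
    obtain ⟨y, hy, e⟩ := hm
    rw [hw, e, ← mul_assoc, inv_mul_cancel₀ hγ, one_mul]
    exact hy
  have hpow : ∀ (s : ℕ) (x : K), trChar ((s : K) * x) = trChar x ^ s := fun s x => by
    induction s with
    | zero => simp [trChar]
    | succ s ih => rw [Nat.cast_succ, add_mul, one_mul, trChar_add, ih, pow_succ]
  have hroot : ∀ b : 𝓞 K, trChar (w * (b : K)) ^ N = 1 := fun b => by
    rw [← hpow, show (N : K) * (w * (b : K)) = w * (((N : 𝓞 K) * b : 𝓞 K) : K) by push_cast; ring]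
    exact trChar_dualAt h.ne_bot hwmem (𝔪.mul_mem_right _ hN)
  have hsum : σ (gaussSumAt 𝔪 f S w) = gaussSumAt 𝔪 (twistChar σ f) S (((t : 𝓞 K) : K) * w) := by
    have : Finite (𝓞 K ⧸ 𝔪) := Ideal.finiteQuotientOfFreeOfNeBot 𝔪 h.ne_bot
    let _ := Fintype.ofFinite (𝓞 K ⧸ 𝔪)
    rw [gaussSumAt, gaussSumAt, tsum_fintype, tsum_fintype, map_sum]
    refine Finset.sum_congr rfl fun b _ => ?_
    rw [map_mul, resFn_twist, hσ _ (hroot _), ← hpow]
    congr 2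
    push_cast
    ring
  rw [gaussW, gaussW, ← hw, map_div₀, map_mul, map_sgnS, hsum,
    h'.gaussSumAt_mul hwmem (natCast_coprime hN htt).1, conj_resFn_eq h' hN htt,
    show twistChar σ f (intIdeal 𝔪 (dualAt 𝔪 1)) = σ (f (intIdeal 𝔪 (dualAt 𝔪 1))) from rfl]
  ring

section TotallyReal

variable [IsTotallyReal K] {k N : ℕ}

theorem sgnS_parity (hpar : HasParity S k) {x : K} (hx : x ≠ 0) :
    sgnS S x = ((sgnN x : ℚ) : ℂ) ^ k := by
  have hn : ((|Algebra.norm ℚ x| : ℚ) : ℝ) ≠ 0 :=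
    Rat.cast_ne_zero.2 (abs_ne_zero.2 (Algebra.norm_ne_zero_iff.2 hx))
  have hall : sgnS (Finset.univ : Finset (InfinitePlace K)) x = ((sgnN x : ℚ) : ℂ) := by
    have e : (∏ w : InfinitePlace K, Real.sign (rv w x)) = ((sgnN x : ℚ) : ℝ) := by
      rw [sgnN, Rat.cast_div, eq_div_iff hn, ← prod_abs_remb, ← prod_remb,
        ← Finset.prod_mul_distrib]
      refine Finset.prod_congr rfl fun w _ => ?_
      rw [show rv w x = remb w x by
        rw [rv, remb, ← embedding_of_isReal_apply (IsTotallyReal.isReal w), ofReal_re]]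
      rcases lt_or_gt_of_ne (remb_ne_zero w hx) with h | h
      · rw [Real.sign_of_neg h, abs_of_neg h]; ring
      · rw [Real.sign_of_pos h, abs_of_pos h, one_mul]
    rw [sgnS, ← ofReal_prod, e, ofReal_ratCast]
  have hsq : ((sgnN x : ℚ) : ℂ) ^ 2 = 1 := by
    rw [sq, ← Rat.cast_mul]
    have h2 := sgnN_pow_sq 1 hx
    rw [pow_one] at h2
    rw [h2, Rat.cast_one]
  rcases hpar with ⟨⟨j, rfl⟩, hS⟩ | ⟨⟨j, rfl⟩, hS⟩
  · rw [hS, show j + j = 2 * j by ring, pow_mul, hsq, one_pow]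
    simp [sgnS]
  · rw [hS, pow_add, pow_mul, hsq, one_pow, one_mul, pow_one, hall]

variable [NeZero N]

theorem isPer_res (h : HasSigns 𝔪 f S) (hpar : HasParity S k) (hN : (N : 𝓞 K) ∈ 𝔪)
    (I : (FractionalIdeal (𝓞 K)⁰ K)ˣ) : IsPer I N k (res 𝔪 f S I) where
  periodic d hd y hy := by
    refine h.res_congr I (FA.PadicEulerFactor.add_mem_lat hd (mem_of_mem_pMul I N hy)) hd ?_
    rw [add_sub_cancel_left, ← div_mul_cancel₀ y (Nat.cast_ne_zero.2 (NeZero.ne N) : (N : K) ≠ 0)]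
    exact FractionalIdeal.mul_mem_mul (FA.PadicEulerFactor.mem_pMul.1 hy)
      ((FractionalIdeal.mem_coeIdeal _).2 ⟨_, hN, map_natCast _ _⟩)
  unit m d hd := by
    have hu : |Algebra.norm ℚ (unitVal (K := K) m)| = 1 := unit_norm (unitPow m)
    show res 𝔪 f S I (((unitPow m : 𝓞 K) : K) * d) = _
    rw [h.res_unit_mul I hd, show ((unitPow m : 𝓞 K) : K) = unitVal m from rfl,
      sgnS_parity hpar (unitVal_ne_zero m), sgnN, hu, div_one]

/-- The constant `(-2 π i) ^ (k n) / √|d|`. -/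
def piConst (K : Type*) [Field K] [NumberField K] (k : ℕ) : ℂ :=
  (-(2 * π * I)) ^ (k * finrank ℚ K) / ((√|((discr K : ℤ) : ℝ)| : ℝ) : ℂ)

/-- The rational weight of a class. -/
def classWeight (C : ClassGroup (𝓞 K)) (k N : ℕ) [NeZero N] : ℚ :=
  FractionalIdeal.absNorm (repIdeal K C : FractionalIdeal (𝓞 K)⁰ K) ^ k /
    ((Units.torsionOrder K : ℚ) * (((k - 1).factorial : ℚ) ^ finrank ℚ K *
      FractionalIdeal.absNorm (pMul (repIdeal K C) N : FractionalIdeal (𝓞 K)⁰ K)))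

/-- The rational combination of normalised values. -/
def valueSum (𝔪 : Ideal (𝓞 K)) (f : Ideal (𝓞 K) →* ℂ) (S : Finset (InfinitePlace K)) (k N : ℕ)
    [NeZero N] : ℂ :=
  ∑ C : ClassGroup (𝓞 K), ((classWeight C k N : ℚ) : ℂ) *
    normVal (repIdeal K C) N k (res 𝔪 f S (repIdeal K C))

theorem perSum_eq_normVal (J : (FractionalIdeal (𝓞 K)⁰ K)ˣ) (N k : ℕ) [NeZero N] (Φ : K → ℂ) :
    perSum J k Φ = factor (pMul J N) k * normVal J N k Φ := by
  rw [normVal, ← mul_assoc, mul_inv_cancel₀ (factor_ne_zero (pMul J N) k), one_mul]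

/-- **The value at `k`.** -/
theorem heckeL_value (h : HasSigns 𝔪 f S) (hpar : HasParity S k) (hk : 2 ≤ k) (N : ℕ) [NeZero N] :
    heckeL f (k : ℂ) = piConst K k * valueSum 𝔪 f S k N := by
  have hs : 1 < (k : ℂ).re := by
    rw [natCast_re]
    exact_mod_cast (by omega : 1 < k)
  rw [FA.Hecke.heckeL_eq_sum h.ray hs, valueSum, Finset.mul_sum]
  refine Finset.sum_congr rfl fun C _ => ?_
  obtain ⟨J, hJ⟩ : ∃ J, J = repIdeal K C := ⟨_, rfl⟩
  have hw : (Units.torsionOrder K : ℂ) ≠ 0 := Nat.cast_ne_zero.2 (NeZero.ne _)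
  have hcone := h.charCone_eq J hs
  have hcone' : charCone 𝔪 f S J (k : ℂ) =
      (normR J : ℂ) ^ k * perSum J k (res 𝔪 f S J) := by
    rw [charCone, perSum, ← tsum_mul_left]
    refine tsum_congr fun a => ?_
    have ha := Rep.ne_zero J a
    have hn0 : ((|Algebra.norm ℚ a.1| : ℚ) : ℂ) ≠ 0 :=
      Rat.cast_ne_zero.2 (abs_ne_zero.2 (Algebra.norm_ne_zero_iff.2 ha))
    have hn1 : ((Algebra.norm ℚ a.1 : ℚ) : ℂ) ≠ 0 :=
      Rat.cast_ne_zero.2 (Algebra.norm_ne_zero_iff.2 ha)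
    have hr : (ratio J a.1 : ℂ) = ((|Algebra.norm ℚ a.1| : ℚ) : ℂ) / (normR J : ℂ) := by
      rw [ratio, ofReal_div, ofReal_ratCast]
    have hsq : ((Algebra.norm ℚ a.1 : ℚ) : ℂ) * ((Algebra.norm ℚ a.1 : ℚ) : ℂ) =
        ((|Algebra.norm ℚ a.1| : ℚ) : ℂ) * ((|Algebra.norm ℚ a.1| : ℚ) : ℂ) := by
      rw [← Rat.cast_mul, ← Rat.cast_mul, abs_mul_abs_self]
    rw [coefAt, sgnS_parity hpar ha, hr, cpow_neg, cpow_natCast, sgnN, Rat.cast_div, div_pow,
      div_pow, inv_div]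
    field_simp
    rw [← pow_mul, ← pow_mul]
    linear_combination (res 𝔪 f S J a.1 * (normR J : ℂ) ^ k) * congrArg (· ^ k) hsq
  rw [hJ, mk_repIdeal, ← hJ, hcone', perSum_eq_normVal J N] at hcone
  rw [← hJ, eq_comm, ← mul_right_inj' hw, ← hcone, piConst, classWeight, ← hJ, factor, normR,
    normR]
  simp only [Rat.cast_div, Rat.cast_mul, Rat.cast_pow, Rat.cast_natCast, ofReal_mul,
    ofReal_ratCast]
  field_simp

/-- **The rational combination under `σ`.** -/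
theorem valueSum_galois (h : HasSigns 𝔪 f S) (hpar : HasParity S k) (hk : 3 ≤ k) (σ : ℂ →+* ℂ)
    (hN : (N : 𝓞 K) ∈ 𝔪) {t t' : ℕ} (htt : t * t' ≡ 1 [MOD N])
    (hσ : ∀ z : ℂ, z ^ N = 1 → σ z = z ^ t) :
    σ (valueSum 𝔪 f S k N) =
      resFn 𝔪 (twistChar σ f) S (t' : 𝓞 K) * valueSum 𝔪 (twistChar σ f) S k N := by
  rw [valueSum, valueSum, map_sum, Finset.mul_sum]
  refine Finset.sum_congr rfl fun C _ => ?_
  obtain ⟨J, hJ⟩ : ∃ J, J = repIdeal K C := ⟨_, rfl⟩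
  rw [map_mul, map_ratCast, ← hJ,
    ((isPer_res h hpar hN J).normVal_reciprocity hk σ htt hσ).2, normVal, normVal, perSum, perSum,
    tsum_congr fun d : Rep J => show σ (res 𝔪 f S J ((t' : K) * d.1)) *
        (((Algebra.norm ℚ d.1 : ℚ) : ℂ) ^ k)⁻¹ = resFn 𝔪 (twistChar σ f) S (t' : 𝓞 K) *
          (res 𝔪 (twistChar σ f) S J d.1 * (((Algebra.norm ℚ d.1 : ℚ) : ℂ) ^ k)⁻¹) by
      rw [← res_twist, res_natCast_mul (twist_signs h σ) J t' d.2.1, mul_assoc],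
    tsum_mul_left]
  ring

/-- The product of Gauss sum and value. -/
def primValue (𝔪 : Ideal (𝓞 K)) (f : Ideal (𝓞 K) →* ℂ) (S : Finset (InfinitePlace K)) (k N : ℕ)
    [NeZero N] : ℂ :=
  gaussW 𝔪 f S * valueSum 𝔪 (conjChar f) S k N

/-- **Equivariance of the product.** -/
theorem primValue_galois (h : HasSigns 𝔪 f S) (hpar : HasParity S k) (hk : 3 ≤ k) (σ : ℂ →+* ℂ)
    (hN : (N : 𝓞 K) ∈ 𝔪) :
    σ (primValue 𝔪 f S k N) = primValue 𝔪 (twistChar σ f) S k N := by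
  obtain ⟨t, t', htt, hσ⟩ := exists_exponent σ N
  have h' := twist_signs h σ
  rw [primValue, primValue, map_mul, gaussW_galois h σ hN htt hσ,
    valueSum_galois h.conj hpar hk σ hN htt hσ, twist_conjChar h.ray σ h'.ray, conjChar,
    h'.resFn_conj, ← conjChar]
  have e := h'.resFn_mul_conj (natCast_coprime hN (mul_comm t t' ▸ htt)).1
  linear_combination (gaussW 𝔪 (twistChar σ f) S *
    valueSum 𝔪 (conjChar (twistChar σ f)) S k N) * e

end TotallyReal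

end FA.KlingenRay

end
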