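import Fermat.Agent.SiegelKlingen.RationalConstant
import Fermat.Agent.Eisenstein.LevelP

/-!
# Automorphisms of `ℂ` carry higher coefficients to constant terms

A form of weight `w ≠ 0` on a group of finite index is a root of a monic polynomial over level one,
whose coefficients have conjugates. If `σ` sends the higher coefficients of `f` to those of `h`,
then `h + δ`, `δ` the defect at the constant, is a root of the conjugate polynomial, and so is
`h + δ (c z + d) ^ (-w)` for every element of the group: hence `δ = 0`.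
-/

set_option autoImplicit false
set_option linter.unusedSectionVars false

noncomputable section

namespace FA.KlingenRay

open UpperHalfPlane hiding I
open ModularForm FA.Eis
open scoped MatrixGroups Manifold ModularForm

/-- Invariance, holomorphy and boundedness at all cusps, for a bare function. -/
structure IsMF (Γ : Subgroup SL(2, ℤ)) (w : ℕ) (f : ℍ → ℂ) : Prop where
  inv : ∀ γ ∈ Γ, f ∣[(w : ℤ)] γ = f
  hol : MDiff f
  bdd : BddAllCusps (w : ℤ) f

variable {Γ : Subgroup SL(2, ℤ)} {w : ℕ} {f h : ℍ → ℂ}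

/-- The translate of `f` belonging to a coset. -/
def conjFun (Γ : Subgroup SL(2, ℤ)) (w : ℕ) (f : ℍ → ℂ) (i : SL(2, ℤ) ⧸ Γ) : ℍ → ℂ :=
  f ∣[(w : ℤ)] (Quotient.out i)⁻¹

theorem IsMF.conjFun_mk (hf : IsMF Γ w f) (g : SL(2, ℤ)) :
    conjFun Γ w f (QuotientGroup.mk g) = f ∣[(w : ℤ)] g⁻¹ := by
  obtain ⟨x, hx, e⟩ : ∃ x ∈ Γ,
      Quotient.out (QuotientGroup.mk g : SL(2, ℤ) ⧸ Γ) = g * x :=
    ⟨g⁻¹ * Quotient.out (QuotientGroup.mk g : SL(2, ℤ) ⧸ Γ),
      QuotientGroup.eq.1 (QuotientGroup.out_eq' _).symm, (mul_inv_cancel_left g _).symm⟩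
  rw [conjFun, e, mul_inv_rev, SlashAction.slash_mul, hf.inv _ (Γ.inv_mem hx)]

theorem IsMF.slash_conjFun (hf : IsMF Γ w f) (i : SL(2, ℤ) ⧸ Γ) (A : SL(2, ℤ)) :
    conjFun Γ w f i ∣[(w : ℤ)] A = conjFun Γ w f (A⁻¹ • i) := by
  induction i using QuotientGroup.induction_on with
  | H g =>
    rw [MulAction.Quotient.smul_mk, hf.conjFun_mk, hf.conjFun_mk, smul_eq_mul, mul_inv_rev,
      inv_inv, SlashAction.slash_mul]

/-- Products of negated translates. -/
def negProd (Γ : Subgroup SL(2, ℤ)) (w : ℕ) (f : ℍ → ℂ) (s : Finset (SL(2, ℤ) ⧸ Γ)) : ℍ → ℂ :=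
  ∏ i ∈ s, -conjFun Γ w f i

theorem IsMF.negProd_spec (hf : IsMF Γ w f) (s : Finset (SL(2, ℤ) ⧸ Γ)) :
    (∀ A : SL(2, ℤ), negProd Γ w f s ∣[((s.card * w : ℕ) : ℤ)] A =
      negProd Γ w f (s.map (MulAction.toPerm A⁻¹).toEmbedding)) ∧
    MDiff (negProd Γ w f s) ∧ BddAllCusps ((s.card * w : ℕ) : ℤ) (negProd Γ w f s) := by
  classical
  induction s using Finset.induction_on with
  | empty =>
    refine ⟨fun A => ?_, ?_, fun A => ?_⟩
    · simpa [negProd] using ModularForm.is_invariant_one A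
    · simpa [negProd] using! mdifferentiable_const
    · simpa [negProd, ModularForm.is_invariant_one] using!
        Filter.const_boundedAtFilter atImInfty (1 : ℂ)
  | insert a s ha ih =>
    obtain ⟨ih1, ih2, ih3⟩ := ih
    have e : negProd Γ w f (insert a s) = -conjFun Γ w f a * negProd Γ w f s :=
      Finset.prod_insert ha
    have hc : (((insert a s).card * w : ℕ) : ℤ) = (w : ℤ) + ((s.card * w : ℕ) : ℤ) := by
      rw [Finset.card_insert_of_notMem ha]
      push_cast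
      ring
    refine ⟨fun A => ?_, ?_, ?_⟩
    · rw [e, hc, ModularForm.mul_slash_SL2, SlashAction.neg_slash, hf.slash_conjFun, ih1,
        Finset.map_insert]
      simp only [negProd]
      rw [Finset.prod_insert (by simpa using ha)]
      rfl
    · rw [e]
      exact (hf.hol.slash (w : ℤ) _).neg.mul ih2
    · rw [e, hc]
      refine BddAllCusps.mul ?_ ih3
      rw [← neg_one_smul ℂ (conjFun Γ w f a)]
      exact (hf.bdd.slash_sl _).smul _

/-- **The norm equation.** -/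
theorem IsMF.exists_relation [Γ.FiniteIndex] (hf : IsMF Γ w f) :
    ∃ (d : ℕ) (E : ℕ → ℍ → ℂ), E d = 1 ∧
      (∀ j ≤ d, IsLv 1 (((d - j) * w : ℕ) : ℤ) (E j)) ∧
      ∑ j ∈ Finset.range (d + 1), E j * f ^ j = 0 := by
  classical
  let _ : Fintype (SL(2, ℤ) ⧸ Γ) := Fintype.ofFinite _
  obtain ⟨E, hE⟩ : ∃ E : ℕ → ℍ → ℂ, ∀ j, E j =
      ∑ t ∈ Finset.powersetCard j (Finset.univ : Finset (SL(2, ℤ) ⧸ Γ)), negProd Γ w f tᶜ :=
    ⟨_, fun _ => rfl⟩
  have hcard : ∀ {j : ℕ} {t : Finset (SL(2, ℤ) ⧸ Γ)},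
      t ∈ Finset.powersetCard j Finset.univ → tᶜ.card = Fintype.card (SL(2, ℤ) ⧸ Γ) - j :=
    fun ht => by rw [Finset.card_compl, (Finset.mem_powersetCard.1 ht).2]
  refine ⟨Fintype.card (SL(2, ℤ) ⧸ Γ), E, ?_, fun j _ => ⟨fun A _ => ?_, ?_, ?_⟩, ?_⟩
  · rw [hE, ← Finset.card_univ, Finset.powersetCard_self, Finset.sum_singleton,
      Finset.compl_univ]
    simp [negProd]
  · rw [hE, SlashAction.sum_slash]
    refine Finset.sum_equiv (MulAction.toPerm A⁻¹).finsetCongr (fun t => ?_) fun t ht => ?_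
    · simp [Finset.mem_powersetCard, Equiv.finsetCongr_apply]
    · rw [← hcard ht, (hf.negProd_spec tᶜ).1 A, Equiv.finsetCongr_apply]
      congr 1
      ext x
      simp
  · rw [hE]
    exact MDifferentiable.sum fun t _ => (hf.negProd_spec tᶜ).2.1
  · rw [hE]
    exact BddAllCusps.sum _ fun t ht => hcard ht ▸ (hf.negProd_spec tᶜ).2.2
  · have h := Finset.prod_add (fun _ : SL(2, ℤ) ⧸ Γ => f) (fun i => -conjFun Γ w f i) Finset.univ
    rw [Finset.prod_eq_zero (Finset.mem_univ (QuotientGroup.mk 1))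
      (by rw [hf.conjFun_mk, inv_one, SlashAction.slash_one, add_neg_cancel]),
      Finset.powerset_univ] at h
    refine Eq.trans ?_ h.symm
    rw [← Finset.powerset_univ, Finset.sum_powerset, Finset.card_univ]
    refine Finset.sum_congr rfl fun j _ => ?_
    rw [hE, Finset.sum_mul]
    refine Finset.sum_congr rfl fun t ht => ?_
    rw [Finset.prod_const, (Finset.mem_powersetCard.1 ht).2, ← Finset.compl_eq_univ_sdiff, mul_comm]
    rfl

/-- **The conjugate of a level one form.** -/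
theorem exists_conjugate (σ : ℂ →+* ℂ) {k : ℤ} {E : ℍ → ℂ} (hE : IsLv 1 k E) :
    ∃ E' : ℍ → ℂ, (∀ (g : SL(2, ℤ)) (z : ℍ), E' (g • z) = denom g z ^ k * E' z) ∧
      HasQ 1 E' ((qe E).map σ) := by
  classical
  obtain ⟨x, hx⟩ := Finsupp.mem_span_range_iff_exists_finsupp.1
    (FA.LevelOneRing.mem_span (k.toNat + 1) k (by omega) hE.toMF)
  rw [Finsupp.sum] at hx
  have hq : qe E = ∑ i ∈ x.support, x i • (SiegelKlingen.monoInt i.1).map (Int.castRingHom ℂ) := by
    refine hE.hasQ.unique one_pos ?_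
    rw [show E = ⇑hE.toMF from rfl, ← hx]
    exact HasQ.sum _ fun i _ => (SiegelKlingen.hasQ_monomial k i).smul (x i)
  refine ⟨∑ i ∈ x.support, σ (x i) • FA.LevelOneRing.monomials k i, fun g z => ?_, ?_⟩
  · simp only [Finset.sum_apply, Pi.smul_apply, smul_eq_mul, SiegelKlingen.monomial_smul,
      Finset.mul_sum]
    exact Finset.sum_congr rfl fun i _ => by ring
  · have e : (qe E).map σ =
        ∑ i ∈ x.support, σ (x i) • (SiegelKlingen.monoInt i.1).map (Int.castRingHom ℂ) := by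
      rw [hq]
      ext m
      simp [map_intCast]
    rw [e]
    exact HasQ.sum _ fun i _ => (SiegelKlingen.hasQ_monomial k i).smul (σ (x i))

/-- A lower unipotent element of a group of finite index. -/
theorem exists_lower [Γ.FiniteIndex] :
    ∃ m : ℕ, 0 < m ∧ ∀ j : ℕ, Eis.sl2 1 0 ((j * m : ℕ) : ℤ) 1 (by ring) ∈ Γ := by
  obtain ⟨g, hg⟩ : ∃ g : SL(2, ℤ), g = Eis.sl2 1 0 1 1 (by ring) := ⟨_, rfl⟩
  obtain ⟨m, hm0, -, hm⟩ := Γ.exists_pow_mem_of_index_ne_zero Subgroup.FiniteIndex.index_ne_zero g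
  have hpow : ∀ i : ℕ, g ^ i = Eis.sl2 1 0 (i : ℤ) 1 (by ring) := fun i => by
    induction i with
    | zero =>
      rw [pow_zero]
      ext a b
      fin_cases a <;> fin_cases b <;> rfl
    | succ i ih =>
      rw [pow_succ, ih, hg]
      ext a b
      fin_cases a <;> fin_cases b <;>
        simp [Eis.sl2, Matrix.mul_apply, Fin.sum_univ_two]
  refine ⟨m, hm0, fun j => ?_⟩
  rw [← hpow, mul_comm, pow_mul]
  exact Γ.pow_mem hm j

/-- **The constant term principle.** -/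
theorem constant_galois [Γ.FiniteIndex] (σ : ℂ →+* ℂ) (hw : w ≠ 0) (hf : IsMF Γ w f)
    (hh : ∀ γ ∈ Γ, h ∣[(w : ℤ)] γ = h) {A B : PowerSeries ℂ} (hA : HasQ 1 f A)
    (hB : HasQ 1 h B) (hm : ∀ m : ℕ, m ≠ 0 → σ (A.coeff m) = B.coeff m) :
    σ (A.coeff 0) = B.coeff 0 := by
  classical
  by_contra hne
  obtain ⟨δ, hδ⟩ : ∃ δ : ℂ, δ = σ (A.coeff 0) - B.coeff 0 := ⟨_, rfl⟩
  have hδ0 : δ ≠ 0 := hδ ▸ sub_ne_zero.2 hne
  obtain ⟨d, E, hEd, hEl, hrel⟩ := hf.exists_relation
  have hlv : ∀ j : Fin (d + 1), IsLv 1 (((d - j.1) * w : ℕ) : ℤ) (E j.1) := fun j =>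
    hEl _ (Nat.lt_succ_iff.1 j.2)
  choose G hGinv hGq using fun j => exists_conjugate σ (hlv j)
  have hsA : A.map σ = B + PowerSeries.C δ := by
    ext m
    rcases eq_or_ne m 0 with rfl | hm0
    · simp [hδ]
    · simp [PowerSeries.coeff_C, hm0, hm m hm0]
  obtain ⟨g, hg⟩ : ∃ g : ℍ → ℂ, g = h + fun _ => δ := ⟨_, rfl⟩
  have hgq : HasQ 1 g (A.map σ) := hg ▸ hsA ▸ hB.add (HasQ.const 1 δ)
  have hsum : ∑ j : Fin (d + 1), G j * g ^ (j : ℕ) = 0 := by
    refine HasQ.ext_fun (HasQ.sum _ fun j _ => (hGq j).mul one_pos (hgq.pow one_pos _)) ?_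
    have e : ∑ j : Fin (d + 1), (qe (E j.1)) * A ^ (j : ℕ) = 0 := by
      refine HasQ.unique one_pos (HasQ.sum _ fun j _ =>
        (hlv j).hasQ.mul one_pos (hA.pow one_pos _)) ?_
      rw [Fin.sum_univ_eq_sum_range fun j => E j * f ^ j, hrel]
      exact HasQ.zero 1
    convert HasQ.zero (1 : ℝ)
    simpa [map_sum] using congrArg (PowerSeries.map σ) e
  have htop : G (Fin.last d) = 1 := by
    refine HasQ.ext_fun (hGq _) ?_
    have e : qe (E (Fin.last d : Fin (d + 1)).1) = 1 := by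
      refine (hlv _).hasQ.unique one_pos ?_
      rw [Fin.val_last, hEd]
      exact HasQ.one 1
    rw [e, map_one]
    exact HasQ.one 1
  obtain ⟨τ, hτ⟩ : ∃ τ : ℍ, τ = UpperHalfPlane.I := ⟨_, rfl⟩
  obtain ⟨P, hP⟩ : ∃ P : Polynomial ℂ, P = ∑ j : Fin (d + 1),
      Polynomial.C (G j τ) * Polynomial.X ^ (j : ℕ) := ⟨_, rfl⟩
  have hP0 : P ≠ 0 := fun h0 => by
    have h1 := congrArg (Polynomial.coeff · d) h0
    rw [hP] at h1
    simp only [Polynomial.finsetSum_coeff, Polynomial.coeff_C_mul_X_pow,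
      Polynomial.coeff_zero] at h1
    rw [Finset.sum_eq_single (Fin.last d) (fun j _ hj => if_neg fun e => hj (Fin.ext e.symm))
      (by simp), if_pos (Fin.val_last d).symm, htop] at h1
    exact one_ne_zero h1
  have hroot : ∀ γ ∈ Γ, P.eval (h τ + δ * (denom γ τ ^ w)⁻¹) = 0 := fun γ hγ => by
    have h0 := congrFun hsum (γ • τ)
    simp only [Finset.sum_apply, Pi.mul_apply, Pi.pow_apply, Pi.zero_apply, hg, Pi.add_apply,
      hGinv] at h0
    obtain ⟨D, hD⟩ : ∃ D : ℂ, D = denom γ τ := ⟨_, rfl⟩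
    have hD0 : D ≠ 0 := hD ▸ denom_ne_zero _ _
    have hhγ : h (γ • τ) = D ^ w * h τ := by
      have h1 := (FA.ModField.slash_eq_iff_smul γ).1 (hh γ hγ) τ
      rwa [zpow_natCast, ← hD] at h1
    rw [hhγ, ← hD] at h0
    refine (mul_eq_zero.1 ?_).resolve_left (pow_ne_zero (d * w) hD0)
    rw [← h0, hP, Polynomial.eval_finsetSum, Finset.mul_sum, ← hD]
    refine Finset.sum_congr rfl fun j _ => ?_
    have hj : j.1 ≤ d := Nat.lt_succ_iff.1 j.2
    rw [Polynomial.eval_mul, Polynomial.eval_C, Polynomial.eval_pow, Polynomial.eval_X,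
      show D ^ w * h τ + δ = D ^ w * (h τ + δ * (D ^ w)⁻¹) by field_simp, mul_pow, zpow_natCast,
      show d * w = (d - j.1) * w + w * j.1 by rw [mul_comm w, ← add_mul, Nat.sub_add_cancel hj],
      pow_add, pow_mul D w j.1]
    ring
  obtain ⟨m, hm0, hmem⟩ := exists_lower (Γ := Γ)
  refine hP0 (Polynomial.eq_zero_of_infinite_isRoot P ((Set.infinite_range_of_injective
    (f := fun j : ℕ => h τ + δ * (denom (Eis.sl2 1 0 ((j * m : ℕ) : ℤ) 1 (by ring)) τ ^ w)⁻¹)
    fun i j hij => ?_).mono ?_))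
  · simp only at hij
    have e := congrArg norm (inv_injective (mul_left_cancel₀ hδ0 (add_left_cancel hij)))
    rw [norm_pow, norm_pow, pow_left_inj₀ (norm_nonneg _) (norm_nonneg _) hw, Complex.norm_def,
      Complex.norm_def, Real.sqrt_inj (Complex.normSq_nonneg _) (Complex.normSq_nonneg _)] at e
    have hden : ∀ r : ℕ, Complex.normSq (denom (Eis.sl2 1 0 (r : ℤ) 1 (by ring)) τ) =
        (r : ℝ) ^ 2 + 1 := fun r => by
      rw [ModularGroup.denom_apply, Eis.sl2_10, Eis.sl2_11, hτ, Complex.normSq_apply]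
      simp [sq]
      ring
    rw [hden, hden, add_left_inj,
      pow_left_inj₀ (Nat.cast_nonneg _) (Nat.cast_nonneg _) two_ne_zero, Nat.cast_inj] at e
    exact Nat.eq_of_mul_eq_mul_right hm0 e
  · rintro _ ⟨j, rfl⟩
    exact hroot _ (hmem j)

end FA.KlingenRay

end
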