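import Fermat.Agent.KlingenRay.Lipschitz
import Fermat.Agent.SiegelKlingen.HeckePoisson
import Fermat.Agent.PadicEulerFactor.Pairs

/-!
# Periodic weights on pairs and their Eisenstein series

A weight `Ψ` on the pairs of an ideal `J`, periodic modulo `N J` and transforming by `N (u) ^ k`
under units, gives a series over the orbits; it is absolutely convergent for `k ≥ 3`, bounded above
every horizontal line, and a unimodular matrix permutes the weights.
-/

set_option autoImplicit false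
set_option linter.unusedSectionVars false
set_option linter.style.haveILetI false

noncomputable section

open NumberField InfinitePlace Module Filter
open UpperHalfPlane hiding I
open Complex (I)
open scoped Real nonZeroDivisors Classical MatrixGroups

namespace FA.KlingenRay

open FA.HeckeFE FA.SiegelKlingen
open FA.PadicEulerFactor (pMul mem_pMul add_mem_lat int_mul_mem)

variable {K : Type*} [Field K] [NumberField K] [IsTotallyReal K]
variable (J : (FractionalIdeal (𝓞 K)⁰ K)ˣ) (N : ℕ) [NeZero N]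

theorem sub_mem_lat {x y : K} (hx : x ∈ (J : Set K)) (hy : y ∈ (J : Set K)) :
    x - y ∈ (J : Set K) :=
  ((J : FractionalIdeal (𝓞 K)⁰ K) : Submodule (𝓞 K) K).sub_mem hx hy

theorem sum_mem_lat {ι : Type*} (s : Finset ι) {f : ι → K} (hf : ∀ i ∈ s, f i ∈ (J : Set K)) :
    ∑ i ∈ s, f i ∈ (J : Set K) :=
  ((J : FractionalIdeal (𝓞 K)⁰ K) : Submodule (𝓞 K) K).sum_mem hf

theorem mem_of_mem_pMul {x : K} (hx : x ∈ (pMul J N : Set K)) : x ∈ (J : Set K) := by
  have h := int_mul_mem (B := J) (N : ℤ) (mem_pMul.1 hx)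
  rwa [Int.cast_natCast, div_mul_cancel₀ _ (Nat.cast_ne_zero.2 (NeZero.ne N) : (N : K) ≠ 0)] at h

theorem mul_mem_pMul {x : K} (hx : x ∈ (J : Set K)) : (N : K) * x ∈ (pMul J N : Set K) := by
  rw [mem_pMul, mul_div_cancel_left₀ _ (Nat.cast_ne_zero.2 (NeZero.ne N) : (N : K) ≠ 0)]
  exact hx

/-- Residues of `J` modulo `N J`. -/
theorem exists_residues : ∃ R : Finset K, (∀ r ∈ R, r ∈ (J : Set K)) ∧
    ∀ x ∈ (J : Set K), ∃! r, r ∈ R ∧ x - r ∈ (pMul J N : Set K) := by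
  obtain ⟨n, b, -, hI, -, -⟩ := exists_fin_data J
  obtain ⟨E, hE⟩ : ∃ E : (Fin n → ℤ) ≃ (J : Set K), E = latticeEquiv b hI := ⟨_, rfl⟩
  have hcoe : ∀ v, (E v : K) = ∑ i, (v i : K) * b i := fun v => by
    rw [hE, coe_latticeEquiv]
    exact Finset.sum_congr rfl fun i _ => zsmul_eq_mul _ _
  have hN : (N : K) ≠ 0 := Nat.cast_ne_zero.2 (NeZero.ne N)
  refine ⟨Finset.univ.image fun v : Fin n → Fin N => (E fun i => ((v i : ℕ) : ℤ) : K),
    fun r hr => ?_, fun x hx => ?_⟩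
  · obtain ⟨v, -, rfl⟩ := Finset.mem_image.1 hr
    exact (E _).2
  · obtain ⟨v, hv⟩ : ∃ v, E v = ⟨x, hx⟩ := ⟨E.symm ⟨x, hx⟩, E.apply_symm_apply _⟩
    have hNpos : (0 : ℤ) < N := by exact_mod_cast NeZero.pos N
    obtain ⟨w, hw⟩ : ∃ w : Fin n → Fin N, ∀ i, ((w i : ℕ) : ℤ) = v i % (N : ℤ) :=
      ⟨fun i => ⟨(v i % (N : ℤ)).toNat,
        (Int.toNat_lt (Int.emod_nonneg _ hNpos.ne')).2 (Int.emod_lt_of_pos _ hNpos)⟩,
        fun i => Int.toNat_of_nonneg (Int.emod_nonneg _ hNpos.ne')⟩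
    have hxv : x = ∑ i, (v i : K) * b i := by rw [← hcoe, hv]
    refine ⟨E fun i => ((w i : ℕ) : ℤ), ⟨Finset.mem_image.2 ⟨w, Finset.mem_univ _, rfl⟩, ?_⟩, ?_⟩
    · rw [mem_pMul]
      have e : (x - (E fun i => ((w i : ℕ) : ℤ) : K)) / (N : K) =
          (E fun i => v i / (N : ℤ) : K) := by
        rw [hcoe, hcoe, hxv, div_eq_iff hN, Finset.sum_mul, ← Finset.sum_sub_distrib]
        refine Finset.sum_congr rfl fun i _ => ?_
        have h := congrArg (Int.cast : ℤ → K) (Int.mul_ediv_add_emod (v i) (N : ℤ))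
        push_cast at h
        rw [hw]
        linear_combination (-(b i)) * h
      rw [e]
      exact (E _).2
    · rintro r ⟨hr, hr'⟩
      obtain ⟨u, -, rfl⟩ := Finset.mem_image.1 hr
      obtain ⟨y, hy⟩ : ∃ y, (E y : K) = (x - (E fun i => ((u i : ℕ) : ℤ) : K)) / (N : K) :=
        ⟨E.symm ⟨_, mem_pMul.1 hr'⟩, by rw [Equiv.apply_symm_apply]⟩
      have e : E v = E fun i => (N : ℤ) * y i + ((u i : ℕ) : ℤ) := Subtype.ext (by
        rw [eq_div_iff hN, eq_sub_iff_add_eq] at hy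
        rw [hv]
        refine hy.symm.trans ?_
        simp only [hcoe]
        rw [Finset.sum_mul, ← Finset.sum_add_distrib]
        refine Finset.sum_congr rfl fun i _ => ?_
        push_cast
        ring)
      congr 1
      refine congrArg E (funext fun i => ?_)
      have e' := congrFun (E.injective e) i
      rw [hw, e', add_comm, Int.add_mul_emod_self_left,
        Int.emod_eq_of_lt (Int.natCast_nonneg _) (Int.ofNat_lt.2 (u i).2)]

/-- The residues. -/
def residues : Finset K := (exists_residues J N).choose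

theorem residues_mem {r : K} (hr : r ∈ residues J N) : r ∈ (J : Set K) :=
  (exists_residues J N).choose_spec.1 r hr

theorem existsUnique_residue {x : K} (hx : x ∈ (J : Set K)) :
    ∃! r, r ∈ residues J N ∧ x - r ∈ (pMul J N : Set K) :=
  (exists_residues J N).choose_spec.2 x hx

/-- Residue plus multiple. -/
theorem exists_split : ∃ e : {r // r ∈ residues J N} × ↥(pMul J N : Set K) ≃ ↥(J : Set K),
    ∀ p, (e p : K) = (p.1 : K) + (p.2 : K) := by
  refine ⟨Equiv.ofBijective (fun p => ⟨(p.1 : K) + (p.2 : K),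
    add_mem_lat (residues_mem J N p.1.2) (mem_of_mem_pMul J N p.2.2)⟩) ⟨?_, ?_⟩, fun p => rfl⟩
  · rintro ⟨⟨r, hr⟩, ⟨y, hy⟩⟩ ⟨⟨r', hr'⟩, ⟨y', hy'⟩⟩ h
    have e : r + y = r' + y' := congrArg Subtype.val h
    obtain rfl : r = r' :=
      (existsUnique_residue J N (add_mem_lat (residues_mem J N hr) (mem_of_mem_pMul J N hy))).unique
        ⟨hr, by simpa using hy⟩ ⟨hr', by rw [e]; simpa using hy'⟩
    obtain rfl : y = y' := add_left_cancel e
    rfl
  · rintro ⟨x, hx⟩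
    obtain ⟨r, ⟨hr, hy⟩, -⟩ := existsUnique_residue J N hx
    exact ⟨(⟨r, hr⟩, ⟨x - r, hy⟩), Subtype.ext (by simp)⟩

/-- Multiplication by a number prime to `N` permutes the residues. -/
theorem sum_residues_mul {M : Type*} [AddCommMonoid M] (g : K → M)
    (hg : ∀ x ∈ (J : Set K), ∀ y ∈ (pMul J N : Set K), g (x + y) = g x)
    {t t' : ℕ} (ht : t * t' ≡ 1 [MOD N]) :
    ∑ r ∈ residues J N, g ((t : K) * r) = ∑ r ∈ residues J N, g r := by
  have hmul : ∀ (s : ℕ) {x : K}, x ∈ (J : Set K) → (s : K) * x ∈ (J : Set K) := fun s x hx => by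
    have h := int_mul_mem (B := J) (s : ℤ) hx
    rwa [Int.cast_natCast, mul_comm] at h
  choose ρ hρ hρu using fun (x : K) (hx : x ∈ (J : Set K)) => existsUnique_residue J N hx
  have key : ∀ {a a' : ℕ}, a * a' ≡ 1 [MOD N] → ∀ {r : K} (hr : r ∈ residues J N),
      ρ ((a' : K) * ρ ((a : K) * r) (hmul a (residues_mem J N hr)))
        (hmul a' (residues_mem J N (hρ _ _).1)) = r := fun {a a'} h r hr => by
    refine ((hρu _ _) r ⟨hr, ?_⟩).symm
    obtain ⟨z, hz⟩ := (Int.modEq_iff_dvd).1 (Int.natCast_modEq_iff.2 h.symm)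
    have h1 := (hρ _ (hmul a (residues_mem J N hr))).2
    have e : (a' : K) * ρ ((a : K) * r) (hmul a (residues_mem J N hr)) - r =
        (N : K) * (r * (z : K)) - ((a : K) * r - ρ ((a : K) * r) (hmul a (residues_mem J N hr))) *
          (((a' : ℕ) : ℤ) : K) := by
      have hz' := congrArg (Int.cast : ℤ → K) hz
      push_cast at hz' ⊢
      linear_combination r * hz'
    rw [e]
    refine sub_mem_lat _ (mul_mem_pMul J N (int_mul_mem _ (residues_mem J N hr))) ?_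
    exact int_mul_mem _ h1
  refine Finset.sum_bij' (fun r hr => ρ _ (hmul t (residues_mem J N hr)))
    (fun r hr => ρ _ (hmul t' (residues_mem J N hr))) (fun r hr => (hρ _ _).1)
    (fun r hr => (hρ _ _).1) (fun r hr => key ht hr)
    (fun r hr => key (by rwa [mul_comm]) hr) fun r hr => ?_
  have h1 := hρ _ (hmul t (residues_mem J N hr))
  conv_lhs => rw [← add_sub_cancel (ρ ((t : K) * r) (hmul t (residues_mem J N hr))) ((t : K) * r)]
  exact hg _ (residues_mem J N h1.1) _ h1.2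

/-- A periodic weight on pairs. -/
structure IsWeight (k : ℕ) (Ψ : K × K → ℂ) : Prop where
  periodic : ∀ c ∈ (J : Set K), ∀ d ∈ (J : Set K), ∀ x ∈ (pMul J N : Set K),
    ∀ y ∈ (pMul J N : Set K), Ψ (c + x, d + y) = Ψ (c, d)
  unit : ∀ (m : RestPlace K → ℤ), ∀ c ∈ (J : Set K), ∀ d ∈ (J : Set K),
    Ψ (unitVal m * c, unitVal m * d) =
      ((Algebra.norm ℚ (unitVal (K := K) m) : ℚ) : ℂ) ^ k * Ψ (c, d)

/-- Multiplication of a pair by a matrix. -/
def rowMul (g : SL(2, ℤ)) (p : K × K) : K × K :=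
  (p.1 * (g 0 0 : K) + p.2 * (g 1 0 : K), p.1 * (g 0 1 : K) + p.2 * (g 1 1 : K))

theorem rowMul_rowMul (g h : SL(2, ℤ)) (p : K × K) :
    rowMul h (rowMul g p) = rowMul (g * h) p := by
  refine Prod.ext ?_ ?_ <;> simp [rowMul, Matrix.mul_apply, Fin.sum_univ_two] <;> ring

theorem rowMul_one (p : K × K) : rowMul 1 p = p := by simp [rowMul]

variable {J N} {k : ℕ} {Ψ : K × K → ℂ}

/-- The translated weight. -/
theorem IsWeight.comp (hΨ : IsWeight J N k Ψ) (g : SL(2, ℤ)) :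
    IsWeight J N k fun p => Ψ (rowMul g p) where
  periodic c hc d hd x hx y hy := by
    have e : rowMul g (c + x, d + y) =
        ((rowMul g (c, d)).1 + (rowMul g (x, y)).1, (rowMul g (c, d)).2 + (rowMul g (x, y)).2) :=
      Prod.ext (by simp only [rowMul]; ring) (by simp only [rowMul]; ring)
    show Ψ (rowMul g (c + x, d + y)) = _
    rw [e]
    exact hΨ.periodic _ (add_mem_lat (int_mul_mem _ hc) (int_mul_mem _ hd))
      _ (add_mem_lat (int_mul_mem _ hc) (int_mul_mem _ hd))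
      _ (add_mem_lat (int_mul_mem _ hx) (int_mul_mem _ hy))
      _ (add_mem_lat (int_mul_mem _ hx) (int_mul_mem _ hy))
  unit m c hc d hd := by
    show Ψ (rowMul g (unitVal m * c, unitVal m * d)) = _
    rw [show rowMul g (unitVal m * c, unitVal m * d) =
      (unitVal m * (rowMul g (c, d)).1, unitVal m * (rowMul g (c, d)).2) from
        Prod.ext (by simp only [rowMul]; ring) (by simp only [rowMul]; ring)]
    exact hΨ.unit m _ (add_mem_lat (int_mul_mem _ hc) (int_mul_mem _ hd))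
      _ (add_mem_lat (int_mul_mem _ hc) (int_mul_mem _ hd))

theorem IsWeight.exists_bound (hΨ : IsWeight J N k Ψ) :
    ∃ M : ℝ, 0 ≤ M ∧ ∀ c ∈ (J : Set K), ∀ d ∈ (J : Set K), ‖Ψ (c, d)‖ ≤ M := by
  refine ⟨∑ r ∈ residues J N ×ˢ residues J N, ‖Ψ r‖, Finset.sum_nonneg fun _ _ => norm_nonneg _,
    fun c hc d hd => ?_⟩
  obtain ⟨r, ⟨hr, hx⟩, -⟩ := existsUnique_residue J N hc
  obtain ⟨r', ⟨hr', hy⟩, -⟩ := existsUnique_residue J N hd
  have e := hΨ.periodic r (residues_mem J N hr) r' (residues_mem J N hr') _ hx _ hy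
  rw [add_sub_cancel, add_sub_cancel] at e
  rw [e]
  exact Finset.single_le_sum (f := fun q : K × K => ‖Ψ q‖) (fun q _ => norm_nonneg _)
    (Finset.mem_product.2 ⟨hr, hr'⟩)

/-- Scaling a term. -/
theorem eisTerm_scale (k : ℕ) (z : ℂ) (u c d : K) :
    eisTerm k z (u * c) (u * d) =
      (((Algebra.norm ℚ u : ℚ) : ℂ) ^ k)⁻¹ * eisTerm k z c d := by
  rw [eisTerm, eisTerm, ← mul_inv, inv_inj, ← Complex.ofReal_ratCast, ← prod_remb,
    Complex.ofReal_prod, ← Finset.prod_pow, ← Finset.prod_mul_distrib]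
  refine Finset.prod_congr rfl fun w _ => ?_
  rw [← mul_pow, map_mul, map_mul]
  push_cast
  ring

/-- The size of a term, scaled. -/
theorem norm_eisTerm_le' {k : ℕ} (hk : 2 ≤ k) {z : ℂ} (hz : 0 < z.im) {c : K} (hc : c ≠ 0) (d : K) :
    ‖eisTerm k z c d‖ ≤ ((((|Algebra.norm ℚ c| : ℚ) : ℝ) * z.im ^ finrank ℚ K) ^ k)⁻¹ *
      placeWeight fun w => (remb w c * z.re + remb w d) / (|remb w c| * z.im) := by
  rw [eisTerm, norm_inv, norm_prod, placeWeight, Finset.prod_inv_distrib, ← mul_inv,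
    ← prod_abs_remb, ← card_places, ← Finset.card_univ, ← Finset.prod_const,
    ← Finset.prod_mul_distrib, ← Finset.prod_pow, ← Finset.prod_mul_distrib]
  have hpos : ∀ w, 0 < |remb w c| * z.im := fun w =>
    mul_pos (abs_pos.2 (remb_ne_zero w hc)) hz
  refine inv_anti₀ (Finset.prod_pos fun w _ => by have := hpos w; positivity)
    (Finset.prod_le_prod (fun w _ => by have := hpos w; positivity) fun w _ => ?_)
  obtain ⟨u, hu⟩ : ∃ u : ℂ, u = (remb w c : ℂ) * z + (remb w d : ℂ) := ⟨_, rfl⟩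
  obtain ⟨a, ha⟩ : ∃ a : ℝ, a = |remb w c| * z.im := ⟨_, rfl⟩
  have ha0 : 0 < a := ha ▸ hpos w
  have hre : u.re = remb w c * z.re + remb w d := by rw [hu]; simp
  have hnorm : ‖u‖ ^ 2 = a ^ 2 + u.re ^ 2 := by
    rw [← Complex.normSq_eq_norm_sq, Complex.normSq_apply, ha, mul_pow, sq_abs, hu]
    simp
    ring
  have h1 : a ≤ ‖u‖ := le_of_sq_le_sq (by nlinarith [hnorm, sq_nonneg u.re]) (norm_nonneg _)
  rw [← hu, ← hre, ← ha, norm_pow]
  calc a ^ k * (1 + (u.re / a) ^ 2) = a ^ (k - 2) * (a ^ 2 + u.re ^ 2) := by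
        rw [show a ^ k = a ^ (k - 2) * a ^ 2 by rw [← pow_add, Nat.sub_add_cancel hk]]
        field_simp
    _ ≤ ‖u‖ ^ (k - 2) * ‖u‖ ^ 2 := by rw [hnorm]; gcongr
    _ = ‖u‖ ^ k := by rw [← pow_add, Nat.sub_add_cancel hk]

variable (J)

/-- **Absolute convergence, uniformly above a line.** -/
theorem exists_sum_bound {k : ℕ} (hk : 3 ≤ k) {y₀ : ℝ} (hy : 0 < y₀) :
    ∃ C : ℝ, 0 ≤ C ∧ ∀ z : ℂ, y₀ ≤ z.im → ∀ c : Rep J,
      (Summable fun d : ↥(J : Set K) => ‖eisTerm k z c.1 d‖) ∧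
        ∑' d : ↥(J : Set K), ‖eisTerm k z c.1 d‖ ≤ C * ratio J c.1 ^ (-((k - 1 : ℕ) : ℝ)) := by
  obtain ⟨δ, hδ, hδc⟩ := exists_rep_lower_bound J
  obtain ⟨C, hC0, hC⟩ := exists_scaled_bound J (mul_pos hδ hy)
  have hnorm := normR_pos J
  refine ⟨C * ((normR J * y₀ ^ finrank ℚ K) ^ (k - 1))⁻¹, by positivity, fun z hz c => ?_⟩
  have hc0 := Rep.ne_zero J c
  have hzpos : 0 < z.im := hy.trans_le hz
  obtain ⟨hs, hle⟩ := hC (fun w => |remb w c.1| * z.im) (fun w => remb w c.1 * z.re)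
    fun w => mul_le_mul (hδc c w) hz hy.le (abs_nonneg _)
  obtain ⟨A, hA⟩ : ∃ A : ℝ,
      A = (((|Algebra.norm ℚ c.1| : ℚ) : ℝ) * z.im ^ finrank ℚ K) := ⟨_, rfl⟩
  have hA0 : 0 < A := hA ▸ mul_pos
    (Rat.cast_pos.2 (abs_pos.2 (Algebra.norm_ne_zero_iff.2 hc0))) (by positivity)
  have hb : ∀ d : ↥(J : Set K), ‖eisTerm k z c.1 d‖ ≤ (A ^ k)⁻¹ * placeWeight fun w =>
      (remb w c.1 * z.re + remb w (d : K)) / (|remb w c.1| * z.im) :=
    fun d => hA ▸ norm_eisTerm_le' (by omega) hzpos hc0 d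
  have hsum : Summable fun d : ↥(J : Set K) => ‖eisTerm k z c.1 d‖ :=
    Summable.of_nonneg_of_le (fun d => norm_nonneg _) hb (hs.mul_left _)
  refine ⟨hsum, (hsum.tsum_le_tsum hb (hs.mul_left _)).trans ?_⟩
  rw [tsum_mul_left]
  refine (mul_le_mul_of_nonneg_left hle (by positivity)).trans ?_
  have hprod : ∏ w, |remb w c.1| * z.im = A := by
    rw [Finset.prod_mul_distrib, prod_abs_remb, Finset.prod_const, Finset.card_univ, card_places,
      hA]
  have hr := zero_lt_one.trans_le (one_le_ratio_rep J c)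
  rw [hprod, Real.rpow_neg hr.le, Real.rpow_natCast, mul_assoc C, ← mul_inv, ← mul_pow,
    mul_left_comm, show (A ^ k)⁻¹ * A = (A ^ (k - 1))⁻¹ by
      rw [show k = k - 1 + 1 by omega, pow_succ, mul_inv, mul_assoc, inv_mul_cancel₀ hA0.ne',
        mul_one, Nat.add_sub_cancel]]
  refine mul_le_mul_of_nonneg_left (inv_anti₀ (by positivity) (pow_le_pow_left₀ (by positivity)
    ?_ _)) hC0
  rw [hA, mul_right_comm, normR_mul_ratio]
  gcongr

/-- The term of a pair. -/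
def pairTerm (k : ℕ) (Ψ : K × K → ℂ) (z : ℂ) (p : K × K) : ℂ := Ψ p * eisTerm k z p.1 p.2

/-- The series of a weight. -/
def psiSum (k : ℕ) (Ψ : K × K → ℂ) (z : ℂ) : ℂ :=
  ∑' x : Orb J, pairTerm k Ψ z (repPair J x)

variable {J}

/-- **Summability and boundedness.** -/
theorem IsWeight.summable_and_bound (hk : 3 ≤ k) (hΨ : IsWeight J N k Ψ) {y₀ : ℝ} (hy : 0 < y₀) :
    ∃ B : ℝ, ∀ z : ℂ, y₀ ≤ z.im →
      (Summable fun x : Orb J => pairTerm k Ψ z (repPair J x)) ∧ ‖psiSum J k Ψ z‖ ≤ B := by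
  obtain ⟨M, hM0, hM⟩ := hΨ.exists_bound
  obtain ⟨C, hC0, hC⟩ := exists_sum_bound J hk hy
  have hsr : Summable fun c : Rep J => ratio J c.1 ^ (-((k - 1 : ℕ) : ℝ)) := summable_ratio J (by
    have : (2 : ℝ) ≤ ((k - 1 : ℕ) : ℝ) := by exact_mod_cast (by omega : 2 ≤ k - 1)
    linarith)
  have hsk : Summable fun c : Rep J => (((|Algebra.norm ℚ c.1| : ℚ) : ℝ) ^ k)⁻¹ :=
    summable_constSum J (by omega)
  refine ⟨∑' c : Rep J, M * (C * ratio J c.1 ^ (-((k - 1 : ℕ) : ℝ))) +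
    ∑' c : Rep J, M * (((|Algebra.norm ℚ c.1| : ℚ) : ℝ) ^ k)⁻¹, fun z hz => ?_⟩
  obtain ⟨F, hF⟩ : ∃ F : Orb J → ℝ, ∀ x, F x = ‖pairTerm k Ψ z (repPair J x)‖ := ⟨_, fun _ => rfl⟩
  have hb : ∀ c : Rep J, ∀ d : ↥(J : Set K), F (Sum.inl (c, d)) ≤ M * ‖eisTerm k z c.1 d‖ :=
    fun c d => by
      rw [hF, pairTerm, norm_mul]
      exact mul_le_mul_of_nonneg_right (hM _ c.2.1 _ d.2) (norm_nonneg _)
  have hin : ∀ c : Rep J, Summable fun d : ↥(J : Set K) => F (Sum.inl (c, d)) := fun c =>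
    Summable.of_nonneg_of_le (fun d => by rw [hF]; exact norm_nonneg _) (hb c)
      ((hC z hz c).1.mul_left M)
  have hin' : ∀ c : Rep J, ∑' d : ↥(J : Set K), F (Sum.inl (c, d)) ≤
      M * (C * ratio J c.1 ^ (-((k - 1 : ℕ) : ℝ))) := fun c => by
    refine ((hin c).tsum_le_tsum (hb c) ((hC z hz c).1.mul_left M)).trans ?_
    rw [tsum_mul_left]
    exact mul_le_mul_of_nonneg_left (hC z hz c).2 hM0
  have hprod : Summable fun p : Rep J × ↥(J : Set K) => F (Sum.inl p) :=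
    (summable_prod_of_nonneg fun p => by rw [hF]; exact norm_nonneg _).2
      ⟨hin, Summable.of_nonneg_of_le
        (fun c => tsum_nonneg fun d => by rw [hF]; exact norm_nonneg _) hin'
        ((hsr.mul_left C).mul_left M)⟩
  have hb0 : ∀ d : Rep J,
      F (Sum.inr d) ≤ M * (((|Algebra.norm ℚ d.1| : ℚ) : ℝ) ^ k)⁻¹ := fun d => by
    rw [hF, pairTerm, norm_mul]
    refine mul_le_mul (hM _ (zero_mem_ideal J) _ d.2.1) (le_of_eq ?_) (norm_nonneg _) hM0
    show ‖eisTerm k z 0 d.1‖ = _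
    rw [eisTerm, norm_inv, norm_prod, ← prod_abs_remb, ← Finset.prod_pow]
    congr 1
    exact Finset.prod_congr rfl fun w _ => by simp
  have hzero : Summable fun d : Rep J => F (Sum.inr d) :=
    Summable.of_nonneg_of_le (fun d => by rw [hF]; exact norm_nonneg _) hb0 (hsk.mul_left M)
  have hall : Summable F := Summable.sum F hprod hzero
  refine ⟨Summable.of_norm (hall.congr hF), (norm_tsum_le_tsum_norm (hall.congr hF)).trans ?_⟩
  rw [← tsum_congr hF, Summable.tsum_sum hprod hzero, hprod.tsum_prod]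
  refine add_le_add ?_ (hzero.tsum_le_tsum hb0 (hsk.mul_left M))
  exact (Summable.of_nonneg_of_le
    (fun c => tsum_nonneg fun d => by rw [hF]; exact norm_nonneg _) hin'
      ((hsr.mul_left C).mul_left M)).tsum_le_tsum hin' ((hsr.mul_left C).mul_left M)

/-- A function of pairs invariant under units may be reindexed by a matrix. -/
theorem tsum_orb_rowMul (F : K × K → ℂ)
    (hF : ∀ (m : RestPlace K → ℤ), ∀ c ∈ (J : Set K), ∀ d ∈ (J : Set K),
      F (unitVal m * c, unitVal m * d) = F (c, d)) (g : SL(2, ℤ)) :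
    ∑' x : Orb J, F (rowMul g (repPair J x)) = ∑' x : Orb J, F (repPair J x) := by
  rw [← (orbPerm J g).tsum_eq fun x : Orb J => F (repPair J x)]
  refine tsum_congr fun x => ?_
  obtain ⟨⟨y, m⟩, hy⟩ : ∃ q, q = (pairEquiv J).symm (pairAct J g (pairEquiv J (x, 0))) := ⟨_, rfl⟩
  have hy' : pairEquiv J (y, m) = pairAct J g (pairEquiv J (x, 0)) := by
    rw [hy, Equiv.apply_symm_apply]
  rw [show orbPerm J g x = y from (congrArg Prod.fst hy).symm,
    ← hF m _ (repPair_mem J y).1 _ (repPair_mem J y).2.1]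
  have e := congrArg (fun p : Pairs J => p.1) hy'
  simp only [pairAct, pairEquiv_eq, unitVal_zero, one_mul] at e
  exact congrArg F e.symm

/-- **The transformation law.** -/
theorem IsWeight.psiSum_smul (hΨ : IsWeight J N k Ψ) (g : SL(2, ℤ)) (τ : ℍ) :
    psiSum J k Ψ ((g • τ : ℍ) : ℂ) = denom g τ ^ (k * finrank ℚ K) *
      psiSum J k (fun p => Ψ (rowMul g⁻¹ p)) (τ : ℂ) := by
  have hF : ∀ (m : RestPlace K → ℤ), ∀ c ∈ (J : Set K), ∀ d ∈ (J : Set K),
      pairTerm k (fun p => Ψ (rowMul g⁻¹ p)) (τ : ℂ) (unitVal m * c, unitVal m * d) =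
        pairTerm k (fun p => Ψ (rowMul g⁻¹ p)) (τ : ℂ) (c, d) := fun m c hc d hd => by
    have hu : ((Algebra.norm ℚ (unitVal (K := K) m) : ℚ) : ℂ) ^ k ≠ 0 := pow_ne_zero _
      (Rat.cast_ne_zero.2 (Algebra.norm_ne_zero_iff.2 (unitVal_ne_zero m)))
    rw [pairTerm, pairTerm, (hΨ.comp g⁻¹).unit m c hc d hd, eisTerm_scale]
    field_simp
  rw [psiSum, psiSum, ← tsum_orb_rowMul _ hF g, ← tsum_mul_left]
  refine tsum_congr fun x => ?_
  obtain ⟨den, hden⟩ : ∃ den : ℂ, den = (g 1 0 : ℂ) * τ + (g 1 1 : ℂ) := ⟨_, rfl⟩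
  have hd : denom g τ = den := by rw [ModularGroup.denom_apply, hden]
  have hden0 : den ≠ 0 := hd ▸ denom_ne_zero _ _
  obtain ⟨p, hp⟩ : ∃ p, p = repPair J x := ⟨_, rfl⟩
  rw [← hp, hd, pairTerm, pairTerm, rowMul_rowMul, mul_inv_cancel, rowMul_one,
    mul_left_comm]
  congr 1
  rw [eisTerm, eisTerm, ← inv_inj, mul_inv, inv_inv, inv_inv, ← card_places, pow_mul,
    ← Finset.card_univ, ← Finset.prod_const, ← Finset.prod_inv_distrib,
    ← Finset.prod_mul_distrib]
  refine Finset.prod_congr rfl fun w _ => ?_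
  rw [← inv_pow, ← mul_pow]
  congr 1
  rw [UpperHalfPlane.specialLinearGroup_apply]
  simp only [rowMul, algebraMap_int_eq, eq_intCast, Complex.ofReal_intCast, map_add, map_mul,
    map_intCast, Complex.ofReal_add, Complex.ofReal_mul]
  rw [← hden]
  field_simp
  rw [hden]
  ring

end FA.KlingenRay

end
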