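import Fermat.Agent.KlingenRay.Constant
import Fermat.Agent.KlingenRay.Aut
import Fermat.Agent.KlingenRay.Weights
import Fermat.Agent.HeckeCharFE.Gauss

/-!
# The Eisenstein series of a periodic function, and reciprocity for its constant term

For `Φ` on `J`, periodic modulo `N J`, the pairs with first entry in `N J` give a form on `Γ₁(N)`:
its constant is `∑' Φ (d) N (d) ^ (-k)`, its coefficients are rational combinations of the finite
Fourier sums `∑ Φ (r) exp (2 π i Tr (ν r))` times the factor of `N J`. Hence an automorphism of `ℂ`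
acts on the normalised value through the finite Fourier sums.
-/

set_option autoImplicit false
set_option linter.unusedSectionVars false
set_option linter.style.haveILetI false

noncomputable section

open NumberField InfinitePlace Module Filter
open UpperHalfPlane hiding I
open Complex (I)
open scoped Real nonZeroDivisors Classical MatrixGroups Manifold ModularForm

namespace FA.KlingenRay

open FA.HeckeFE FA.SiegelKlingen FA.Eis
open FA.HeckeCharFE (trChar norm_trChar trChar_add)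
open FA.PadicEulerFactor (pMul mem_pMul add_mem_lat int_mul_mem)
open CongruenceSubgroup

variable {K : Type*} [Field K] [NumberField K] [IsTotallyReal K]
variable (J : (FractionalIdeal (𝓞 K)⁰ K)ˣ) (N : ℕ) [NeZero N] (k : ℕ)

/-- A periodic function on `J` with the equivariance under units. -/
structure IsPer (Φ : K → ℂ) : Prop where
  periodic : ∀ d ∈ (J : Set K), ∀ y ∈ (pMul J N : Set K), Φ (d + y) = Φ d
  unit : ∀ (m : RestPlace K → ℤ), ∀ d ∈ (J : Set K),
    Φ (unitVal m * d) = ((Algebra.norm ℚ (unitVal (K := K) m) : ℚ) : ℂ) ^ k * Φ d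

/-- The weight of pairs of a periodic function. -/
def liftW (Φ : K → ℂ) (p : K × K) : ℂ := if p.1 ∈ (pMul J N : Set K) then Φ p.2 else 0

/-- The Eisenstein series of a periodic function. -/
def eisPer (Φ : K → ℂ) (τ : ℍ) : ℂ := psiSum J k (liftW J N Φ) (τ : ℂ)

/-- The sum giving the constant term. -/
def perSum (Φ : K → ℂ) : ℂ :=
  ∑' d : Rep J, Φ d.1 * (((Algebra.norm ℚ d.1 : ℚ) : ℂ) ^ k)⁻¹

/-- The normalised value. -/
def normVal (Φ : K → ℂ) : ℂ := (factor (pMul J N) k)⁻¹ * perSum J k Φ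

/-- The finite Fourier sum. -/
def hatSum (Φ : K → ℂ) (ν : K) : ℂ := ∑ r ∈ residues J N, Φ r * trChar (ν * r)

/-- Representatives in `N J`. -/
abbrev SubRep : Type _ := {c : Rep J // (c.1 : K) ∈ (pMul J N : Set K)}

/-- Positive products. -/
abbrev Terms : Type _ :=
  {p : SubRep J N × ↥(dualIdeal (pMul J N) : Set K) //
    ∀ w : InfinitePlace K, 0 < remb w p.1.1.1 * remb w (p.2 : K)}

/-- The trace of the product. -/
def termLevel (y : Terms J N) : ℕ :=
  (Algebra.trace ℚ K (y.1.1.1.1 * (y.1.2 : K))).num.toNat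

/-- The coefficient of `q ^ m`, up to the factor. -/
def perCoeff (Φ : K → ℂ) (m : ℕ) : ℂ :=
  ∑' y : {y : Terms J N // termLevel J N y = m},
    ((sgnN y.1.1.1.1.1 ^ k * |Algebra.norm ℚ (y.1.1.2 : K)| ^ (k - 1) : ℚ) : ℂ) *
      hatSum J N Φ (y.1.1.2 : K)

variable {J N k} {Φ : K → ℂ}

theorem IsPer.lift (h : IsPer J N k Φ) : IsWeight J N k (liftW J N Φ) where
  periodic c hc d hd x hx y hy := by
    have e : c + x ∈ (pMul J N : Set K) ↔ c ∈ (pMul J N : Set K) :=
      ⟨fun h' => by simpa using sub_mem_lat (pMul J N) h' hx, fun h' => add_mem_lat h' hx⟩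
    simp only [liftW, e, h.periodic d hd y hy]
  unit m c hc d hd := by
    have e : unitVal m * c ∈ (pMul J N : Set K) ↔ c ∈ (pMul J N : Set K) :=
      ⟨fun h' => by
        have h'' := unitVal_mul_mem (pMul J N) (-m) h'
        rwa [← mul_assoc, ← unitVal_add, neg_add_cancel, unitVal_zero, one_mul] at h'',
        unitVal_mul_mem (pMul J N) m⟩
    simp only [liftW, e, h.unit m d hd, mul_ite, mul_zero]

theorem IsPer.lift_rowMul (h : IsPer J N k Φ) {g : SL(2, ℤ)} (hg : g ∈ Gamma1 N) {p : K × K}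
    (h1 : p.1 ∈ (J : Set K)) (h2 : p.2 ∈ (J : Set K)) :
    liftW J N Φ (rowMul g p) = liftW J N Φ p := by
  rw [Gamma1_mem] at hg
  obtain ⟨a, ha⟩ := (ZMod.intCast_zmod_eq_zero_iff_dvd (g 0 0 - 1) N).1 (by simp [hg.1])
  obtain ⟨c, hc⟩ := (ZMod.intCast_zmod_eq_zero_iff_dvd (g 1 0) N).1 hg.2.2
  obtain ⟨d, hd⟩ := (ZMod.intCast_zmod_eq_zero_iff_dvd (g 1 1 - 1) N).1 (by simp [hg.2.1])
  have ha' := congrArg (Int.cast : ℤ → K) ha
  have hc' := congrArg (Int.cast : ℤ → K) hc
  have hd' := congrArg (Int.cast : ℤ → K) hd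
  push_cast at ha' hc' hd'
  have e1 : (rowMul g p).1 =
      p.1 + (N : K) * (p.1 * (a : K) + p.2 * (c : K)) := by
    show p.1 * (g 0 0 : K) + p.2 * (g 1 0 : K) = _
    linear_combination p.1 * ha' + p.2 * hc'
  have hx : (N : K) * (p.1 * (a : K) + p.2 * (c : K)) ∈ (pMul J N : Set K) :=
    mul_mem_pMul J N (add_mem_lat (int_mul_mem _ h1) (int_mul_mem _ h2))
  have hiff : (rowMul g p).1 ∈ (pMul J N : Set K) ↔ p.1 ∈ (pMul J N : Set K) := by
    rw [e1]
    exact ⟨fun h' => by simpa using sub_mem_lat (pMul J N) h' hx, fun h' => add_mem_lat h' hx⟩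
  rw [liftW, liftW]
  by_cases hp : p.1 ∈ (pMul J N : Set K)
  · rw [if_pos hp, if_pos (hiff.2 hp)]
    have e2 : (rowMul g p).2 = p.2 + (p.1 * (g 0 1 : K) + (N : K) * (p.2 * (d : K))) := by
      show p.1 * (g 0 1 : K) + p.2 * (g 1 1 : K) = _
      linear_combination p.2 * hd'
    rw [e2]
    exact h.periodic _ h2 _ (add_mem_lat (int_mul_mem _ hp) (mul_mem_pMul J N (int_mul_mem _ h2)))
  · rw [if_neg hp, if_neg (hiff.not.2 hp)]

theorem IsPer.slash_eq (h : IsPer J N k Φ) (A : SL(2, ℤ)) :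
    eisPer J N k Φ ∣[((k * finrank ℚ K : ℕ) : ℤ)] A =
      fun τ : ℍ => psiSum J k (fun p => liftW J N Φ (rowMul A⁻¹ p)) (τ : ℂ) := by
  funext τ
  rw [Eis.slash_sl_apply, eisPer, h.lift.psiSum_smul, ← Eis.denom_eq_den, zpow_neg, zpow_natCast]
  field_simp [denom_ne_zero]

theorem IsPer.inv (h : IsPer J N k Φ) {g : SL(2, ℤ)} (hg : g ∈ Gamma1 N) :
    eisPer J N k Φ ∣[((k * finrank ℚ K : ℕ) : ℤ)] g = eisPer J N k Φ := by
  rw [h.slash_eq]
  funext τ
  exact tsum_congr fun x => by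
    rw [pairTerm, pairTerm, h.lift_rowMul ((Gamma1 N).inv_mem hg) (repPair_mem J x).1
      (repPair_mem J x).2.1]

theorem IsPer.bdd (h : IsPer J N k Φ) (hk : 3 ≤ k) :
    BddAllCusps ((k * finrank ℚ K : ℕ) : ℤ) (eisPer J N k Φ) := fun A => by
  obtain ⟨B, hB⟩ := (h.lift.comp A⁻¹).summable_and_bound hk one_pos
  rw [h.slash_eq A, isBoundedAtImInfty_iff]
  exact ⟨B, 1, fun z hz => (hB (z : ℂ) hz).2⟩

theorem termLevel_spec (y : Terms J N) :
    (termLevel J N y : ℚ) = Algebra.trace ℚ K (y.1.1.1.1 * (y.1.2 : K)) ∧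
      termLevel J N y ≠ 0 := by
  have hpos : 0 < Algebra.trace ℚ K (y.1.1.1.1 * (y.1.2 : K)) := by
    refine Rat.cast_pos.1 (?_ : (0 : ℝ) < _)
    rw [← sum_remb]
    exact Finset.sum_pos (fun w _ => by rw [map_mul]; exact y.2 w) Finset.univ_nonempty
  obtain ⟨z, hz⟩ : ∃ z : ℤ, (z : ℚ) = Algebra.trace ℚ K (y.1.1.1.1 * (y.1.2 : K)) := by
    obtain ⟨z, hz⟩ := (FractionalIdeal.mem_dual (A := ℤ) (K := ℚ) (pMul J N).ne_zero).1
      y.1.2.2 y.1.1.1.1 y.1.1.2
    exact ⟨z, by rw [← eq_intCast (algebraMap ℤ ℚ), hz, Algebra.traceForm_apply, mul_comm]⟩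
  rw [← hz, Int.cast_pos] at hpos
  rw [termLevel, ← hz, Rat.num_intCast]
  refine ⟨?_, by omega⟩
  rw [← Int.cast_natCast, Int.toNat_of_nonneg hpos.le]

theorem norm_hatSum_le (ν : K) : ‖hatSum J N Φ ν‖ ≤ ∑ r ∈ residues J N, ‖Φ r‖ :=
  (norm_sum_le _ _).trans (Finset.sum_le_sum fun r _ => by rw [norm_mul, norm_trChar, mul_one])

/-- The exponential of the expansion. -/
abbrev expTerm (z : ℂ) (c ν : K) : ℂ :=
  Complex.exp (2 * π * I * z * ((Algebra.trace ℚ K (c * ν) : ℚ) : ℂ))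

theorem sgnN_pow_sq (k : ℕ) {c : K} (hc : c ≠ 0) : sgnN c ^ k * sgnN c ^ k = 1 := by
  rw [← mul_pow, sgnN, div_mul_div_comm, abs_mul_abs_self,
    div_self (mul_self_ne_zero.2 (Algebra.norm_ne_zero_iff.2 hc)), one_pow]

variable (J N) in
/-- The unweighted terms are absolutely summable. -/
theorem summable_coef (hk : 3 ≤ k) (τ : ℍ) :
    Summable fun p : SubRep J N × ↥(dualIdeal (pMul J N) : Set K) =>
      ‖(coef k p.1.1.1 (p.2 : K) : ℂ) * expTerm (τ : ℂ) p.1.1.1 p.2‖ := by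
  obtain ⟨σ, hσ⟩ : ∃ σ : ℍ, σ = ⟨τ.im * I, by simpa using τ.im_pos⟩ := ⟨_, rfl⟩
  obtain ⟨C, -, hC⟩ := exists_sum_bound J hk σ.im_pos
  have hin := fun (z : ℍ) (c : SubRep J N) =>
    (lipschitz_shift (pMul J N) (by omega : 2 ≤ k) (Rep.ne_zero J c.1) (0 : K) z).2
  have hs2 : ∀ c : SubRep J N,
      ((sgnN (c.1.1 : K) ^ k : ℚ) : ℂ) * ((sgnN (c.1.1 : K) ^ k : ℚ) : ℂ) = 1 :=
    fun c => by rw [← Rat.cast_mul, sgnN_pow_sq k (Rep.ne_zero J c.1), Rat.cast_one]
  have htriv : trChar (0 : K) = 1 := by simp [trChar]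
  obtain ⟨g, hg⟩ : ∃ g : SubRep J N × ↥(dualIdeal (pMul J N) : Set K) → ℝ, ∀ p, g p =
      ‖(coef k p.1.1.1 (p.2 : K) : ℂ) * expTerm (τ : ℂ) p.1.1.1 p.2‖ := ⟨_, fun _ => rfl⟩
  have hval : ∀ c : SubRep J N, HasSum (fun ν => (g (c, ν) : ℂ))
      (((sgnN (c.1.1 : K) ^ k : ℚ) : ℂ) * ((factor (pMul J N) k)⁻¹ *
        ∑' y : ↥(pMul J N : Set K), eisTerm k σ c.1.1 (0 + y))) := fun c => by
    refine ((hin σ c).mul_left _).congr_fun fun ν => ?_
    rw [hg, norm_expansion_term, mul_zero, htriv, mul_one, Rat.cast_mul, ← mul_assoc, ← mul_assoc,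
      hs2, one_mul, hσ]
    push_cast
    rw [UpperHalfPlane.coe_im]
    congr 2
    linear_combination
      (-2 * (π : ℂ) * τ.im * ((Algebra.trace ℚ K (c.1.1 * (ν : K)) : ℚ) : ℂ)) * Complex.I_sq
  refine Summable.congr ((summable_prod_of_nonneg fun p => by rw [hg]; exact norm_nonneg _).2
    ⟨fun c => Complex.summable_ofReal.1 (hval c).summable, ?_⟩) hg
  refine Summable.of_nonneg_of_le (fun c => tsum_nonneg fun ν => by rw [hg]; exact norm_nonneg _)
    (fun c => ?_) (((summable_ratio J (x := ((k - 1 : ℕ) : ℝ))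
      (by exact_mod_cast (by omega : 1 < k - 1))).subtype
        {c : Rep J | (c.1 : K) ∈ (pMul J N : Set K)}).mul_left (‖(factor (pMul J N) k)⁻¹‖ * C))
  have e := congrArg norm ((Complex.ofReal_tsum fun ν => g (c, ν)).trans (hval c).tsum_eq)
  rw [Complex.norm_real, Real.norm_of_nonneg (tsum_nonneg fun ν => by rw [hg]; exact norm_nonneg _),
    norm_mul, norm_mul] at e
  have hone : ‖((sgnN (c.1.1 : K) ^ k : ℚ) : ℂ)‖ = 1 := by
    have h2 := congrArg norm (hs2 c)
    rw [norm_mul, norm_one] at h2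
    nlinarith [norm_nonneg (((sgnN (c.1.1 : K) ^ k : ℚ) : ℂ))]
  rw [e, hone, one_mul, Function.comp_apply, mul_assoc]
  refine mul_le_mul_of_nonneg_left ?_ (norm_nonneg _)
  obtain ⟨hs, hle⟩ := hC (σ : ℂ) le_rfl c.1
  obtain ⟨ι, hι⟩ : ∃ ι : ↥(pMul J N : Set K) → ↥(J : Set K), ∀ y, (ι y : K) = y :=
    ⟨fun y => ⟨y, mem_of_mem_pMul J N y.2⟩, fun y => rfl⟩
  have hinj : Function.Injective ι := fun a b hab =>
    Subtype.ext (by rw [← hι a, ← hι b, hab])
  have hsub : Summable fun y : ↥(pMul J N : Set K) => ‖eisTerm k σ c.1.1 (0 + y)‖ :=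
    (hs.comp_injective hinj).congr fun y => by rw [Function.comp_apply, hι, zero_add]
  refine ((norm_tsum_le_tsum_norm hsub).trans ?_).trans hle
  refine Summable.tsum_le_tsum_of_inj ι hinj (fun d _ => norm_nonneg _) (fun y => ?_) hsub hs
  rw [hι, zero_add]

/-- **The expansion**, as a sum over positive products. -/
theorem IsPer.hasSum_terms (h : IsPer J N k Φ) (hk : 3 ≤ k) (τ : ℍ) :
    HasSum (fun y : Terms J N =>
      ((sgnN y.1.1.1.1 ^ k * |Algebra.norm ℚ (y.1.2 : K)| ^ (k - 1) : ℚ) : ℂ) *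
        hatSum J N Φ (y.1.2 : K) * expTerm (τ : ℂ) y.1.1.1.1 y.1.2)
      ((factor (pMul J N) k)⁻¹ * (eisPer J N k Φ τ - perSum J k Φ)) := by
  obtain ⟨B, hB⟩ := h.lift.summable_and_bound hk τ.im_pos
  obtain ⟨hsumm, -⟩ := hB (τ : ℂ) le_rfl
  obtain ⟨e, he⟩ := exists_split J N
  have hN0 : (0 : K) ∈ (pMul J N : Set K) := zero_mem_ideal _
  have hleft := hsumm.comp_injective (i := Sum.inl) Sum.inl_injective
  have hright := hsumm.comp_injective (i := Sum.inr) Sum.inr_injective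
  have hinner : ∀ c : SubRep J N, HasSum (fun ν : ↥(dualIdeal (pMul J N) : Set K) =>
      ((sgnN (c.1.1 : K) ^ k * coef k c.1.1 (ν : K) : ℚ) : ℂ) * hatSum J N Φ (ν : K) *
        expTerm (τ : ℂ) c.1.1 ν)
      ((factor (pMul J N) k)⁻¹ *
        ∑' d : ↥(J : Set K), pairTerm k (liftW J N Φ) (τ : ℂ) (c.1.1, (d : K))) := fun c => by
    have hs : ∀ r : K, Summable fun y : ↥(pMul J N : Set K) => eisTerm k (τ : ℂ) c.1.1 (r + y) :=
      fun r => (lipschitz_shift (pMul J N) (by omega : 2 ≤ k) (Rep.ne_zero J c.1) r τ).1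
    have hval : ∑' d : ↥(J : Set K), pairTerm k (liftW J N Φ) (τ : ℂ) (c.1.1, (d : K)) =
        ∑ r ∈ residues J N, Φ r * ∑' y : ↥(pMul J N : Set K), eisTerm k (τ : ℂ) c.1.1 (r + y) := by
      have hc' : ∀ p : {r // r ∈ residues J N} × ↥(pMul J N : Set K),
          pairTerm k (liftW J N Φ) (τ : ℂ) (c.1.1, (e p : K)) =
            Φ p.1 * eisTerm k (τ : ℂ) c.1.1 ((p.1 : K) + p.2) := fun p => by
        rw [pairTerm, liftW, if_pos c.2, he, h.periodic _ (residues_mem J N p.1.2) _ p.2.2]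
      have hall : Summable fun d : ↥(J : Set K) =>
          pairTerm k (liftW J N Φ) (τ : ℂ) (c.1.1, (d : K)) :=
        hleft.comp_injective (i := fun d => (c.1, d)) fun a b hab => (Prod.ext_iff.1 hab).2
      have hall' : Summable fun p : {r // r ∈ residues J N} × ↥(pMul J N : Set K) =>
          pairTerm k (liftW J N Φ) (τ : ℂ) (c.1.1, (e p : K)) := e.summable_iff.2 hall
      rw [← e.tsum_eq fun d : ↥(J : Set K) => pairTerm k (liftW J N Φ) (τ : ℂ) (c.1.1, (d : K)),
        Summable.tsum_prod hall', tsum_fintype,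
        ← Finset.sum_coe_sort (residues J N)]
      refine Finset.sum_congr rfl fun r _ => ?_
      rw [← tsum_mul_left]
      exact tsum_congr fun y => hc' (r, y)
    rw [hval]
    have hh : HasSum (fun ν : ↥(dualIdeal (pMul J N) : Set K) => ∑ r ∈ residues J N,
        Φ r * (((sgnN (c.1.1 : K) ^ k * coef k c.1.1 (ν : K) : ℚ) : ℂ) * trChar ((ν : K) * r) *
          expTerm (τ : ℂ) c.1.1 ν))
        (∑ r ∈ residues J N, Φ r * ((factor (pMul J N) k)⁻¹ *
          ∑' y : ↥(pMul J N : Set K), eisTerm k (τ : ℂ) c.1.1 (r + y))) :=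
      hasSum_sum fun r _ => (lipschitz_shift (pMul J N) (by omega : 2 ≤ k)
        (Rep.ne_zero J c.1) r τ).2.mul_left (Φ r)
    rw [Finset.mul_sum, Finset.sum_congr rfl fun r _ => mul_left_comm _ (Φ r) _]
    refine hh.congr_fun fun ν => ?_
    rw [hatSum, Finset.mul_sum, Finset.sum_mul]
    exact Finset.sum_congr rfl fun r _ => by ring
  have hsum : Summable fun p : SubRep J N × ↥(dualIdeal (pMul J N) : Set K) =>
      ((sgnN (p.1.1.1 : K) ^ k * coef k p.1.1.1 (p.2 : K) : ℚ) : ℂ) * hatSum J N Φ (p.2 : K) *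
        expTerm (τ : ℂ) p.1.1.1 p.2 := by
    refine Summable.of_norm_bounded ((summable_coef J N hk τ).mul_left
      (∑ r ∈ residues J N, ‖Φ r‖)) fun p => ?_
    have hone : ‖((sgnN (p.1.1.1 : K) ^ k : ℚ) : ℂ)‖ = 1 := by
      have h2 : ‖((sgnN (p.1.1.1 : K) ^ k : ℚ) : ℂ) * ((sgnN (p.1.1.1 : K) ^ k : ℚ) : ℂ)‖ = 1 := by
        rw [← Rat.cast_mul, sgnN_pow_sq k (Rep.ne_zero J p.1.1), Rat.cast_one, norm_one]
      rw [norm_mul] at h2
      nlinarith [norm_nonneg (((sgnN (p.1.1.1 : K) ^ k : ℚ) : ℂ))]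
    rw [Rat.cast_mul, norm_mul, norm_mul, norm_mul, norm_mul, hone, one_mul, mul_comm ‖_‖
      ‖hatSum J N Φ _‖, mul_assoc]
    exact mul_le_mul_of_nonneg_right (norm_hatSum_le _) (by positivity)
  have htot := hsum.hasSum
  rw [hsum.tsum_prod, tsum_congr fun c => (hinner c).tsum_eq, tsum_mul_left] at htot
  have hout : ∑' c : SubRep J N, ∑' d : ↥(J : Set K),
      pairTerm k (liftW J N Φ) (τ : ℂ) (c.1.1, (d : K)) =
      eisPer J N k Φ τ - perSum J k Φ := by
    rw [eisPer, psiSum, Summable.tsum_sum hleft hright, eq_sub_iff_add_eq]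
    congr 1
    · refine Eq.trans ?_ hleft.tsum_prod.symm
      exact tsum_subtype_eq_of_support_subset (s := {c : Rep J | (c.1 : K) ∈ (pMul J N : Set K)})
        (f := fun c : Rep J => ∑' d : ↥(J : Set K),
          pairTerm k (liftW J N Φ) (τ : ℂ) (c.1, (d : K))) fun c hc => by
          by_contra hcon
          refine hc ((tsum_congr fun d => ?_).trans tsum_zero)
          have hcon' : ¬((c.1 : K), (d : K)).1 ∈ (pMul J N : Set K) := hcon
          rw [pairTerm, liftW, if_neg hcon', zero_mul]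
    · refine tsum_congr fun d => ?_
      rw [repPair, pairTerm, liftW, if_pos hN0, eisTerm, ← Complex.ofReal_ratCast,
        ← prod_remb, Complex.ofReal_prod, ← Finset.prod_pow]
      congr 2
      exact Finset.prod_congr rfl fun w _ => by simp
  rw [hout] at htot
  refine (((hasSum_subtype_iff_of_support_subset
    (s := {p : SubRep J N × ↥(dualIdeal (pMul J N) : Set K) |
      ∀ w : InfinitePlace K, 0 < remb w p.1.1.1 * remb w (p.2 : K)}) fun p hp => ?_).2
        htot).congr_fun fun y => ?_)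
  · by_contra hcon
    refine hp ?_
    rw [Set.mem_ofPred_eq] at hcon
    simp only [coef, if_neg hcon, mul_zero, Rat.cast_zero, zero_mul]
  · obtain ⟨p, hp⟩ := y
    simp only [Function.comp_apply, coef]
    rw [if_pos (show ∀ w : InfinitePlace K, 0 < remb w p.1.1.1 * remb w (p.2 : K) from hp)]

theorem finite_termLevel (hk : 3 ≤ k) (m : ℕ) : {y : Terms J N | termLevel J N y = m}.Finite := by
  obtain ⟨b, hb⟩ : ∃ b : ℝ,
      b = normR (dualIdeal (pMul J N)) ^ (k - 1) * Real.exp (-(2 * π * (m : ℝ))) := ⟨_, rfl⟩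
  have hb0 : 0 < b := by
    rw [hb]
    have := normR_pos (dualIdeal (pMul J N))
    positivity
  have h := ((summable_coef J N hk UpperHalfPlane.I).comp_injective
    (i := fun y : Terms J N => y.1) Subtype.val_injective).tendsto_cofinite_zero.eventually
      (gt_mem_nhds hb0)
  rw [Filter.eventually_cofinite] at h
  refine h.subset fun y (hy : termLevel J N y = m) => ?_
  show ¬ _ < _
  have hne : (y.1.2 : K) ≠ 0 := fun h0 => by simpa [h0] using y.2 (Classical.arbitrary _)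
  rw [not_lt, hb, Function.comp_apply, norm_expansion_term, ← (termLevel_spec y).1, hy, coef,
    if_pos y.2, Rat.cast_pow]
  refine mul_le_mul ?_ (le_of_eq ?_) (Real.exp_pos _).le (pow_nonneg (Rat.cast_nonneg.2
    (abs_nonneg _)) _)
  · exact pow_le_pow_left₀ (normR_pos _).le (normR_le_norm _ y.1.2.2 hne) _
  · congr 1
    simp

theorem perCoeff_zero (Φ : K → ℂ) : perCoeff J N k Φ 0 = 0 := by
  have : IsEmpty {y : Terms J N // termLevel J N y = 0} :=
    ⟨fun y => (termLevel_spec y.1).2 y.2⟩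
  exact tsum_empty

/-- **The q-series.** -/
theorem IsPer.hasQ (h : IsPer J N k Φ) (hk : 3 ≤ k) :
    HasQ 1 (eisPer J N k Φ) (PowerSeries.mk fun m =>
      if m = 0 then perSum J k Φ else factor (pMul J N) k * perCoeff J N k Φ m) := fun τ => by
  have hterms := h.hasSum_terms hk τ
  rw [← (Equiv.sigmaFiberEquiv (termLevel J N)).hasSum_iff] at hterms
  have hlev : HasSum (fun m => perCoeff J N k Φ m * Function.Periodic.qParam (1 : ℝ) (τ : ℂ) ^ m)
      ((factor (pMul J N) k)⁻¹ * (eisPer J N k Φ τ - perSum J k Φ)) := by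
    refine hterms.sigma fun m => ?_
    have : Fintype {y : Terms J N // termLevel J N y = m} := (finite_termLevel hk m).fintype
    convert hasSum_fintype _ using 1
    rw [perCoeff, tsum_fintype, Finset.sum_mul]
    refine Finset.sum_congr rfl fun y _ => ?_
    simp only [Function.comp_apply, Equiv.sigmaFiberEquiv_apply, expTerm]
    rw [← (termLevel_spec y.1).1, y.2, Function.Periodic.qParam, ← Complex.exp_nat_mul,
      Complex.ofReal_one, div_one]
    push_cast
    congr 2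
    ring
  have h2 := (hasSum_ite_eq 0 (perSum J k Φ)).add (hlev.mul_left (factor (pMul J N) k))
  rw [← mul_assoc, mul_inv_cancel₀ (factor_ne_zero (pMul J N) k), one_mul, add_sub_cancel] at h2
  refine h2.congr_fun fun m => ?_
  rw [PowerSeries.coeff_mk]
  rcases eq_or_ne m 0 with rfl | hm
  · simp [perCoeff_zero]
  · simp [hm]
    ring

/-- **The Eisenstein series is a form on `Γ₁(N)`.** -/
theorem IsPer.isMF (h : IsPer J N k Φ) (hk : 3 ≤ k) :
    IsMF (Gamma1 N) (k * finrank ℚ K) (eisPer J N k Φ) :=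
  ⟨fun _ hg => h.inv hg, (h.hasQ hk).mdiff one_pos, h.bdd hk⟩

/-- **Reciprocity for the normalised value.** -/
theorem IsPer.normVal_galois {Φ' : K → ℂ} (h : IsPer J N k Φ) (h' : IsPer J N k Φ') (hk : 3 ≤ k)
    (σ : ℂ →+* ℂ) (hhat : ∀ ν ∈ (dualIdeal (pMul J N) : Set K),
      σ (hatSum J N Φ ν) = hatSum J N Φ' ν) :
    σ (normVal J N k Φ) = normVal J N k Φ' := by
  have hw : k * finrank ℚ K ≠ 0 := Nat.mul_ne_zero (by omega) finrank_pos.ne'
  obtain ⟨C₀, hC⟩ : ∃ C₀ : ℂ, C₀ = (factor (pMul J N) k)⁻¹ := ⟨_, rfl⟩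
  have hmf : IsMF (Gamma1 N) (k * finrank ℚ K) (C₀ • eisPer J N k Φ) :=
    ⟨fun g hg => by rw [ModularForm.SL_smul_slash, h.inv hg],
      ((h.hasQ hk).smul C₀).mdiff one_pos, (h.bdd hk).smul C₀⟩
  have hres := constant_galois σ hw hmf
    (h := C₀ • eisPer J N k Φ') (fun g hg => by rw [ModularForm.SL_smul_slash, h'.inv hg])
    ((h.hasQ hk).smul C₀) ((h'.hasQ hk).smul C₀) fun m hm => ?_
  · simpa [normVal, hC] using hres
  · simp only [PowerSeries.coeff_smul, PowerSeries.coeff_mk, if_neg hm, smul_eq_mul, hC,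
      ← mul_assoc, inv_mul_cancel₀ (factor_ne_zero (pMul J N) k), one_mul]
    have : Fintype {y : Terms J N // termLevel J N y = m} := (finite_termLevel hk m).fintype
    rw [perCoeff, perCoeff, tsum_fintype, tsum_fintype, map_sum]
    exact Finset.sum_congr rfl fun y _ => by rw [map_mul, map_ratCast, hhat _ y.1.1.2.2]

/-- **Siegel's reciprocity law**: `σ` sends the value of `Φ` to that of `σ ∘ Φ ∘ t'`. -/
theorem IsPer.normVal_reciprocity (h : IsPer J N k Φ) (hk : 3 ≤ k) (σ : ℂ →+* ℂ) {t t' : ℕ}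
    (htt : t * t' ≡ 1 [MOD N]) (hσ : ∀ z : ℂ, z ^ N = 1 → σ z = z ^ t) :
    IsPer J N k (fun x => σ (Φ ((t' : K) * x))) ∧
      σ (normVal J N k Φ) = normVal J N k fun x => σ (Φ ((t' : K) * x)) := by
  have hmul : ∀ (s : ℕ) {x : K}, x ∈ (J : Set K) → (s : K) * x ∈ (J : Set K) := fun s x hx => by
    have h := int_mul_mem (B := J) (s : ℤ) hx
    rwa [Int.cast_natCast, mul_comm] at h
  have h' : IsPer J N k fun x => σ (Φ ((t' : K) * x)) := by
    refine ⟨fun d hd y hy => ?_, fun m d hd => ?_⟩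
    · show σ (Φ ((t' : K) * (d + y))) = σ (Φ ((t' : K) * d))
      rw [mul_add, h.periodic _ (hmul t' hd)]
      have := int_mul_mem (B := pMul J N) (t' : ℤ) hy
      rwa [Int.cast_natCast, mul_comm] at this
    · show σ (Φ ((t' : K) * (unitVal m * d))) = _ * σ (Φ ((t' : K) * d))
      rw [mul_left_comm, h.unit m _ (hmul t' hd), map_mul, map_pow, map_ratCast]
  refine ⟨h', h.normVal_galois h' hk σ fun ν hν => ?_⟩
  have hdual : ∀ {y : K}, y ∈ (pMul J N : Set K) → trChar (ν * y) = 1 := fun hy =>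
    FA.HeckeCharFE.trChar_mul_eq_one hν hy
  have hpow : ∀ (s : ℕ) (x : K), trChar (ν * ((s : K) * x)) = trChar (ν * x) ^ s := fun s x => by
    induction s with
    | zero => simp [trChar]
    | succ s ih =>
      rw [Nat.cast_succ, add_mul, one_mul, mul_add, trChar_add, ih, pow_succ]
  have hroot : ∀ r ∈ (J : Set K), trChar (ν * r) ^ N = 1 := fun r hr => by
    rw [← hpow, hdual (mul_mem_pMul J N hr)]
  have hstep : ∀ r ∈ (J : Set K), trChar (ν * r) ^ (t' * t) = trChar (ν * r) := fun r hr => by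
    rw [mul_comm t' t, pow_eq_pow_mod (t * t') (hroot r hr), htt, ← pow_eq_pow_mod 1 (hroot r hr),
      pow_one]
  have hperm := sum_residues_mul J N
    (fun x : K => σ (Φ x) * trChar (ν * x) ^ t) (fun x hx y hy => by
      show σ (Φ (x + y)) * _ = _
      rw [h.periodic x hx y hy, mul_add, trChar_add, hdual hy, mul_one])
    (t := t') (t' := t) (by rwa [mul_comm])
  calc σ (hatSum J N Φ ν) = ∑ r ∈ residues J N, σ (Φ r) * trChar (ν * r) ^ t := by
        rw [hatSum, map_sum]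
        exact Finset.sum_congr rfl fun r hr => by
          rw [map_mul, hσ _ (hroot r (residues_mem J N hr))]
    _ = _ := hperm.symm
    _ = hatSum J N (fun x => σ (Φ ((t' : K) * x))) ν :=
        Finset.sum_congr rfl fun r hr => by
          show σ (Φ _) * _ = _
          rw [hpow, ← pow_mul, hstep r (residues_mem J N hr)]

end FA.KlingenRay

end
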