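import Fermat.Agent.SiegelKlingen.Lipschitz
import Fermat.Agent.HeckeCharFE.Shift

/-!
# Lipschitz's formula for translates of an ideal, weights of both parities

The sum of `∏ (c_w z + d_w) ^ (-k)` over a translate `x₀ + J` is the series over the dual with the
coefficients twisted by `exp (2 π i Tr (ν x₀))` and by `sgn (N c) ^ k`.
-/

set_option autoImplicit false
set_option linter.unusedSectionVars false
set_option linter.style.haveILetI false

noncomputable section

open NumberField InfinitePlace Module MeasureTheory Matrix UnitAddTorus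
open UpperHalfPlane (coe_im)
open Complex (I)
open scoped Real nonZeroDivisors Classical Nat UpperHalfPlane

namespace FA.KlingenRay

open FA.HeckeFE FA.SiegelKlingen
open FA.HeckeCharFE (trChar)
open FA.PackingLP (HasDecay radialWeight poisson_decay)

variable {K : Type*} [Field K] [NumberField K] [IsTotallyReal K]

/-- The sign of the norm. -/
def sgnN (c : K) : ℚ := Algebra.norm ℚ c / |Algebra.norm ℚ c|

theorem prod_remb (x : K) : ∏ w, remb w x = ((Algebra.norm ℚ x : ℚ) : ℝ) := by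
  have h1 : ((Algebra.norm ℚ x : ℚ) : ℂ) = ∏ ψ : K →+* ℂ, ψ x := by
    rw [← eq_ratCast (algebraMap ℚ ℂ), Algebra.norm_eq_prod_embeddings ℚ ℂ]
    exact Fintype.prod_equiv (RingHom.equivRatAlgHom K ℂ).symm _ _ fun σ => rfl
  have h2 : ∏ ψ : K →+* ℂ, ψ x = ∏ w : InfinitePlace K, ((remb w x : ℝ) : ℂ) := by
    rw [← Finset.prod_fiberwise Finset.univ InfinitePlace.mk fun ψ => ψ x]
    refine Finset.prod_congr rfl fun w _ => ?_
    have h : (Finset.univ.filter fun ψ : K →+* ℂ => InfinitePlace.mk ψ = w) = {w.embedding} := by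
      ext ψ
      rw [Finset.mem_filter, Finset.mem_singleton]
      refine ⟨fun hψ => ?_, fun hψ => ⟨Finset.mem_univ _, by rw [hψ, mk_embedding]⟩⟩
      rw [← hψ.2, embedding_mk_eq_of_isReal (IsTotallyReal.complexEmbedding_isReal ψ)]
    rw [h, Finset.prod_singleton, remb, embedding_of_isReal_apply]
  rw [h2, ← Complex.ofReal_prod, ← Complex.ofReal_ratCast] at h1
  exact (Complex.ofReal_injective h1).symm

variable (J : (FractionalIdeal (𝓞 K)⁰ K)ˣ)

/-- **Lipschitz's formula for a translate**, any weight `k ≥ 2`. -/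
theorem lipschitz_shift {k : ℕ} (hk2 : 2 ≤ k) {c : K} (hc : c ≠ 0) (x₀ : K) (τ : ℍ) :
    Summable (fun d : ↥(J : Set K) => eisTerm k τ c (x₀ + d)) ∧
    HasSum (fun ν : ↥(dualIdeal J : Set K) => ((sgnN c ^ k * coef k c ν : ℚ) : ℂ) *
      trChar ((ν : K) * x₀) *
      Complex.exp (2 * π * I * τ * ((Algebra.trace ℚ K (c * ν) : ℚ) : ℂ)))
      ((factor J k)⁻¹ * ∑' d : ↥(J : Set K), eisTerm k τ c (x₀ + d)) := by
  obtain ⟨n, b, e, hI, hI', hdisc⟩ := exists_fin_data J
  have hn : finrank ℚ K = n := by rw [Module.finrank_eq_card_basis b, Fintype.card_fin]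
  obtain ⟨δ, hδ, hcδ⟩ : ∃ δ, 0 < δ ∧ ∀ w, δ ≤ |remb w c| := by
    have hne : (Finset.univ : Finset (InfinitePlace K)).Nonempty := Finset.univ_nonempty
    exact ⟨Finset.univ.inf' hne fun w => |remb w c|,
      (Finset.lt_inf'_iff hne).2 fun w _ => abs_pos.2 (remb_ne_zero w hc),
      fun w => Finset.inf'_le _ (Finset.mem_univ w)⟩
  have hT : Summable fun d : ↥(J : Set K) => eisTerm k τ c (x₀ + d) := by
    obtain ⟨C, -, hC⟩ := exists_translate_bound J
    refine Summable.of_norm_bounded ((hC fun w => remb w c * (τ : ℂ).re + remb w x₀).1.mul_left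
      (((((|Algebra.norm ℚ c| : ℚ) : ℝ) * (τ : ℂ).im ^ finrank ℚ K) ^ (k - 2) *
        min 1 ((δ * (τ : ℂ).im) ^ 2) ^ finrank ℚ K)⁻¹)) fun d => ?_
    refine (norm_eisTerm_le hk2 τ.im_pos hδ hcδ (x₀ + d)).trans_eq ?_
    simp only [map_add, add_assoc]
  refine ⟨hT, ?_⟩
  obtain ⟨M, hM⟩ : ∃ M : Matrix (Fin n) (Fin n) ℝ,
      M = Matrix.of fun j i => remb (e j) (b.traceDual i) := ⟨_, rfl⟩
  obtain ⟨N, hNdef⟩ : ∃ N : Matrix (Fin n) (Fin n) ℝ, N = Matrix.of fun j i => remb (e j) (b i) :=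
    ⟨_, rfl⟩
  have htr : ∀ x y : K, ∑ j, remb (e j) x * remb (e j) y =
      ((Algebra.trace ℚ K (x * y) : ℚ) : ℝ) := fun x y => by
    rw [← sum_remb, ← e.sum_comp fun w => remb w (x * y)]
    simp only [map_mul]
  have hNM : Nᵀ * M = 1 := by
    ext i l
    rw [Matrix.mul_apply, Matrix.one_apply, hM, hNdef]
    simp only [Matrix.transpose_apply, Matrix.of_apply]
    rw [htr, mul_comm, b.trace_traceDual_mul l i]
    by_cases h : i = l <;> simp [h]
  have hdetN : |N.det| = normR J * √|((discr K : ℤ) : ℝ)| := by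
    have e1 : Nᵀ * N = (Algebra.traceMatrix ℚ b).map (algebraMap ℚ ℝ) := by
      ext i l
      rw [Matrix.mul_apply, hNdef]
      simp only [Matrix.transpose_apply, Matrix.of_apply, Matrix.map_apply,
        Algebra.traceMatrix_apply, Algebra.traceForm_apply, eq_ratCast]
      exact htr _ _
    have e2 := congrArg Matrix.det e1
    rw [det_mul, det_transpose, ← RingHom.mapMatrix_apply, ← RingHom.map_det, eq_ratCast,
      ← Algebra.discr_def] at e2
    rw [← Real.sqrt_mul_self_eq_abs N.det, e2, ← abs_of_nonneg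
      (e2 ▸ mul_self_nonneg N.det : (0 : ℝ) ≤ ((Algebra.discr ℚ b : ℚ) : ℝ)), hdisc,
      Real.sqrt_mul (sq_nonneg _), Real.sqrt_sq (normR_pos J).le]
  have hdetM : M.det ≠ 0 := fun h => by
    have := congrArg Matrix.det hNM
    simp [h] at this
  have hdetMN : |M.det|⁻¹ = |N.det| := by
    refine inv_eq_of_mul_eq_one_left ?_
    rw [← abs_mul, ← det_transpose N, ← det_mul, hNM, det_one, abs_one]
  obtain ⟨s, hs, hsc⟩ : ∃ s : Fin n → ℝ, (∀ j, s j = 1 ∨ s j = -1) ∧
      ∀ j, s j * remb (e j) c = |remb (e j) c| := by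
    refine ⟨fun j => if 0 < remb (e j) c then 1 else -1, fun j => ?_, fun j => ?_⟩ <;> simp only
    · split_ifs <;> simp
    · split_ifs with h
      · rw [one_mul, abs_of_pos h]
      · rw [neg_one_mul, abs_of_nonpos (not_lt.1 h)]
  have hss : ∀ j, s j * s j = 1 := fun j => by rcases hs j with h | h <;> simp [h]
  obtain ⟨a, ha⟩ : ∃ a : Fin n → ℂ,
      ∀ j, a j = -(2 * π * I) * ((|remb (e j) c| : ℝ) : ℂ) * τ := ⟨_, fun _ => rfl⟩
  have hare : ∀ j, (a j).re = 2 * π * |remb (e j) c| * τ.im := fun j => by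
    rw [ha, ← coe_im]
    simp
  have hε : 0 < π * δ * τ.im := by
    have := τ.im_pos
    positivity
  have hεre : ∀ j, π * δ * τ.im < (a j).re := fun j => by
    have h1 : π * δ * τ.im ≤ π * |remb (e j) c| * τ.im :=
      mul_le_mul_of_nonneg_right (mul_le_mul_of_nonneg_left (hcδ _) Real.pi_pos.le) τ.im_pos.le
    rw [hare]
    linarith
  have hk1 : k - 1 ≠ 0 := by omega
  obtain ⟨H, hH⟩ : ∃ H : (Fin n → ℝ) → ℂ,
      ∀ x, H x = ∏ j, ((s j : ℂ) ^ k * ramp (k - 1) (a j) (s j * (M *ᵥ x) j) *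
        Complex.exp (2 * π * I * (remb (e j) x₀ : ℝ) * ((M *ᵥ x) j : ℝ))) := ⟨_, fun _ => rfl⟩
  have hHc : Continuous H := by
    rw [funext hH]
    refine continuous_finsetProd _ fun j _ =>
      (continuous_const.mul ((continuous_ramp _ _).comp ?_)).mul ?_ <;>
    · unfold Matrix.mulVec dotProduct
      fun_prop
  have hHd : HasDecay H := by
    choose C hC0 hC using fun j => norm_ramp_le hk1 (hεre j)
    obtain ⟨P, hP⟩ : ∃ P : ℝ, P = (n + 1) * (1 + ∑ j, ∑ i, |N j i|) := ⟨_, rfl⟩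
    have hP0 : 0 < P := hP ▸ by positivity
    obtain ⟨D, hD⟩ := pow_mul_exp_le hε hP0 (2 * n)
    refine ⟨(∏ j, C j) * D, fun x => ?_⟩
    obtain ⟨u, hu⟩ : ∃ u, u = M *ᵥ x := ⟨_, rfl⟩
    obtain ⟨S, hS⟩ : ∃ S : ℝ, S = ∑ j, |u j| := ⟨_, rfl⟩
    have hS0 : 0 ≤ S := hS ▸ Finset.sum_nonneg fun j _ => abs_nonneg _
    have hxb : ∀ i, |x i| ≤ (∑ j, ∑ l, |N j l|) * S := fun i => by
      have e : x = Nᵀ *ᵥ u := by rw [hu, Matrix.mulVec_mulVec, hNM, Matrix.one_mulVec]
      rw [e, hS, Finset.mul_sum]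
      simp only [Matrix.mulVec, dotProduct, Matrix.transpose_apply]
      refine (Finset.abs_sum_le_sum_abs _ _).trans (Finset.sum_le_sum fun j _ => ?_)
      rw [abs_mul]
      refine mul_le_mul_of_nonneg_right ?_ (abs_nonneg _)
      exact (Finset.single_le_sum (f := fun l => |N j l|) (fun l _ => abs_nonneg _)
        (Finset.mem_univ i)).trans (Finset.single_le_sum (f := fun j => ∑ l, |N j l|)
          (fun j _ => Finset.sum_nonneg fun l _ => abs_nonneg _) (Finset.mem_univ j))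
    have hsq : 1 + ∑ i, x i ^ 2 ≤ (1 + P * S) ^ 2 := by
      have h1 : ∑ i, x i ^ 2 ≤ n * ((∑ j, ∑ l, |N j l|) * S) ^ 2 := by
        refine (Finset.sum_le_sum fun i _ => ?_).trans (le_of_eq (by
          rw [Finset.sum_const, Finset.card_univ, Fintype.card_fin, nsmul_eq_mul]))
        rw [← sq_abs]
        exact pow_le_pow_left₀ (abs_nonneg _) (hxb i) 2
      have h2 : (n : ℝ) * ((∑ j, ∑ l, |N j l|) * S) ^ 2 ≤ (P * S) ^ 2 := by
        rw [hP, mul_pow, mul_pow, mul_pow, ← mul_assoc]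
        refine mul_le_mul_of_nonneg_right (mul_le_mul ?_ ?_ (sq_nonneg _) (sq_nonneg _))
          (sq_nonneg S)
        · nlinarith [sq_nonneg (n : ℝ), Nat.cast_nonneg (α := ℝ) n]
        · exact pow_le_pow_left₀ (by positivity) (by linarith) 2
      nlinarith [mul_nonneg hP0.le hS0]
    have hnorm : ‖H x‖ ≤ (∏ j, C j) * Real.exp (-(π * δ * τ.im * S)) := by
      rw [hH, norm_prod, hS, Finset.mul_sum, ← Finset.sum_neg_distrib, Real.exp_sum,
        ← Finset.prod_mul_distrib, ← hu]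
      refine Finset.prod_le_prod (fun j _ => norm_nonneg _) fun j _ => ?_
      have hs1 : |s j| = 1 := by rcases hs j with h | h <;> simp [h]
      rw [norm_mul, norm_mul, norm_pow, Complex.norm_real, Real.norm_eq_abs, hs1, one_pow, one_mul,
        show (2 * π * I * (remb (e j) x₀ : ℝ) * (u j : ℝ) : ℂ) =
          ((2 * π * remb (e j) x₀ * u j : ℝ) : ℂ) * I by push_cast; ring,
        Complex.norm_exp_ofReal_mul_I, mul_one]
      refine (hC j _).trans (le_of_eq ?_)
      rw [abs_mul, hs1, one_mul]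
    refine hnorm.trans ?_
    rw [mul_assoc (∏ j, C j)]
    refine mul_le_mul_of_nonneg_left ?_ (Finset.prod_nonneg fun j _ => hC0 j)
    have hpos : 0 < (1 + ∑ i, x i ^ 2) ^ n := by positivity
    rw [radialWeight, ← div_eq_mul_inv, le_div_iff₀ hpos, mul_comm]
    refine le_trans ?_ (hD S hS0)
    rw [pow_mul (1 + P * S)]
    exact mul_le_mul_of_nonneg_right (pow_le_pow_left₀ (by positivity) hsq n) (Real.exp_pos _).le
  obtain ⟨EI, hEI⟩ : ∃ EI : (Fin n → ℤ) ≃ (J : Set K), EI = latticeEquiv b hI := ⟨_, rfl⟩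
  obtain ⟨EJ, hEJ⟩ : ∃ EJ : (Fin n → ℤ) ≃ (dualIdeal J : Set K),
      EJ = latticeEquiv b.traceDual hI' := ⟨_, rfl⟩
  have hNint : ∀ (m : Fin n → ℤ) j, (N *ᵥ ofInt m) j = remb (e j) (EI m : K) := fun m j => by
    rw [hEI, coe_latticeEquiv, hNdef, map_sum]
    simp only [Matrix.mulVec, dotProduct, Matrix.of_apply, ofInt, zsmul_eq_mul, map_mul,
      map_intCast]
    exact Finset.sum_congr rfl fun i _ => mul_comm _ _
  have hMint : ∀ (v : Fin n → ℤ) j, (M *ᵥ ofInt v) j = remb (e j) (EJ v : K) := fun v j => by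
    rw [hEJ, coe_latticeEquiv, hM, map_sum]
    simp only [Matrix.mulVec, dotProduct, Matrix.of_apply, ofInt, zsmul_eq_mul, map_mul,
      map_intCast]
    exact Finset.sum_congr rfl fun i _ => mul_comm _ _
  have hcoef : ∀ m : Fin n → ℤ, ∫ x : Fin n → ℝ, mFourier (-m) (toTorus x) * H x =
      (factor J k)⁻¹ * eisTerm k τ c (x₀ + -(EI m : K)) := fun m => by
    obtain ⟨g, hgdef⟩ : ∃ g : (Fin n → ℝ) → ℂ, ∀ u, g u = ∏ j,
        (s j : ℂ) ^ k * (ramp (k - 1) (a j) (s j * u j) *
          Complex.exp (-(2 * π * I) * (((N *ᵥ ofInt m) j - remb (e j) x₀ : ℝ) : ℝ) * u j)) :=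
      ⟨_, fun _ => rfl⟩
    have hg : ∀ x, mFourier (-m) (toTorus x) * H x = g (M *ᵥ x) := fun x => by
      have hlin : ∑ i, (N *ᵥ ofInt m) i * (M *ᵥ x) i = ∑ i, (m i : ℝ) * x i := by
        show (N *ᵥ ofInt m) ⬝ᵥ (M *ᵥ x) = ofInt m ⬝ᵥ x
        rw [← Matrix.vecMul_transpose, ← Matrix.dotProduct_mulVec, Matrix.mulVec_mulVec, hNM,
          Matrix.one_mulVec]
      have hexp : mFourier (-m) (toTorus x) = ∏ j, Complex.exp (-(2 * π * I) *
          ((N *ᵥ ofInt m) j : ℝ) * ((M *ᵥ x) j : ℝ)) := by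
        rw [mFourier_toTorus, ← Complex.exp_sum]
        congr 1
        have hlin' := congrArg (fun r : ℝ => (r : ℂ)) hlin
        push_cast at hlin'
        simp only [Pi.neg_apply, Int.cast_neg, neg_mul, mul_assoc, Finset.sum_neg_distrib,
          ← Finset.mul_sum, hlin']
        simp only [mul_neg]
      rw [hgdef, hH, hexp, ← Finset.prod_mul_distrib]
      refine Finset.prod_congr rfl fun j _ => ?_
      rw [show -(2 * π * I) * (((N *ᵥ ofInt m) j - remb (e j) x₀ : ℝ) : ℝ) * ((M *ᵥ x) j : ℝ) =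
          -(2 * π * I) * ((N *ᵥ ofInt m) j : ℝ) * ((M *ᵥ x) j : ℝ) +
            2 * π * I * (remb (e j) x₀ : ℝ) * ((M *ᵥ x) j : ℝ) by push_cast; ring, Complex.exp_add]
      ring
    have hmeas : Measurable fun x : Fin n → ℝ => M *ᵥ x := by
      unfold Matrix.mulVec dotProduct; fun_prop
    have hmap := Real.map_matrix_volume_pi_eq_smul_volume_pi hdetM
    have hcont : Continuous g := by
      rw [funext hgdef]
      exact continuous_finsetProd _ fun j _ => continuous_const.mul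
        (((continuous_ramp _ _).comp (by fun_prop)).mul (by fun_prop))
    simp only [hg]
    rw [← integral_map hmeas.aemeasurable hcont.aestronglyMeasurable,
      show (fun x => M *ᵥ x) = ⇑(Matrix.toLin' M) from rfl, hmap, integral_smul_measure,
      ENNReal.toReal_ofReal (abs_nonneg _), abs_inv, hdetMN, funext hgdef,
      MeasureTheory.integral_fintype_prod_volume_eq_prod
        (f := fun j r => (s j : ℂ) ^ k * (ramp (k - 1) (a j) (s j * r) *
          Complex.exp (-(2 * π * I) * (((N *ᵥ ofInt m) j - remb (e j) x₀ : ℝ) : ℝ) * r))),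
      Finset.prod_congr rfl fun j _ => (integral_const_mul _ _).trans
        (congrArg _ (integral_ramp_sign hk1 (hε.trans (hεre j)) (hs j) _)),
      Complex.real_smul, hdetN, factor, hn, inv_div, eisTerm,
      ← e.prod_comp fun w => ((remb w c : ℂ) * τ + (remb w (x₀ + -(EI m : K)) : ℂ)) ^ k,
      Nat.sub_add_cancel (one_le_two.trans hk2)]
    have hfac : ∀ j, a j + 2 * π * I * ((s j * ((N *ᵥ ofInt m) j - remb (e j) x₀) : ℝ) : ℂ) =
        -(2 * π * I) * (s j : ℂ) *
          ((remb (e j) c : ℂ) * τ + (remb (e j) (x₀ + -(EI m : K)) : ℂ)) := fun j => by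
      rw [ha, ← hsc j, hNint, map_add, map_neg]
      push_cast
      ring
    have hsk : ∀ (j : Fin n) (A B : ℂ), (s j : ℂ) ^ k * (A / (B * (s j : ℂ)) ^ k) = A / B ^ k :=
      fun j A B => by
        have h0 : (s j : ℂ) ^ k ≠ 0 := pow_ne_zero _ (by
          rcases hs j with h | h <;> simp [h])
        rw [mul_pow]
        field_simp
    simp only [hfac, mul_right_comm _ ((s _ : ℝ) : ℂ), hsk]
    simp only [mul_pow, div_eq_mul_inv, Finset.prod_mul_distrib,
      Finset.prod_const, Finset.card_univ, Fintype.card_fin, mul_inv, ← pow_mul, inv_pow,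
      Finset.prod_inv_distrib]
    ring
  have hcs : Summable fun m : Fin n → ℤ =>
      (factor J k)⁻¹ * eisTerm k τ c (x₀ + -(EI m : K)) := by
    refine Summable.mul_left _ ?_
    refine (hT.comp_injective (i := fun m => EI (-m))
      (EI.injective.comp neg_injective)).congr fun m => ?_
    simp only [Function.comp_apply, hEI, coe_latticeEquiv, Pi.neg_apply, neg_smul,
      Finset.sum_neg_distrib]
  have hpois := poisson_decay hHc hHd hcoef hcs 0
  simp only [zero_add, mFourier_toTorus] at hpois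
  have hval₀ : ∀ v : Fin n → ℤ, ∏ j, ramp (k - 1) (a j) (s j * (M *ᵥ ofInt v) j) =
      (coef k c (EJ v : K) : ℂ) *
      Complex.exp (2 * π * I * τ * ((Algebra.trace ℚ K (c * (EJ v : K)) : ℚ) : ℂ)) := fun v => by
    obtain ⟨ν, hν⟩ : ∃ ν : K, ν = EJ v := ⟨_, rfl⟩
    rw [coef, ← hν]
    by_cases hp : ∀ w : InfinitePlace K, 0 < remb w c * remb w ν
    · have hsν : ∀ j, s j * remb (e j) ν = |remb (e j) ν| := fun j => by
        have h := hp (e j)
        rcases hs j with h' | h' <;> have h'' := hsc j <;> rw [h'] at h'' ⊢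
        · rw [one_mul] at h'' ⊢
          rw [abs_of_pos ((pos_iff_pos_of_mul_pos h).1 (lt_of_le_of_ne
            (h''.symm ▸ abs_nonneg _) (remb_ne_zero _ hc).symm))]
        · rw [neg_one_mul] at h'' ⊢
          have hneg : remb (e j) c < 0 := lt_of_le_of_ne
            (neg_nonneg.1 (h''.symm ▸ abs_nonneg _)) (remb_ne_zero _ hc)
          rw [abs_of_neg (neg_of_mul_pos_right h hneg.le)]
      rw [if_pos hp, Rat.cast_pow, ← Complex.ofReal_ratCast, ← prod_abs_remb,
        ← Complex.ofReal_ratCast (Algebra.trace ℚ K (c * ν)), ← sum_remb,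
        ← e.prod_comp fun w => |remb w ν|, ← e.sum_comp fun w => remb w (c * ν),
        Complex.ofReal_prod, ← Finset.prod_pow, Complex.ofReal_sum, Finset.mul_sum,
        Complex.exp_sum, ← Finset.prod_mul_distrib]
      refine Finset.prod_congr rfl fun j _ => ?_
      rw [hMint, ← hν, hsν, ramp_of_nonneg _ _ (abs_nonneg _), ha, map_mul]
      congr 2
      have habs : |remb (e j) c| * |remb (e j) ν| = remb (e j) c * remb (e j) ν := by
        rw [← abs_mul, abs_of_pos (hp _)]
      rw [show -(-(2 * π * I) * ((|remb (e j) c| : ℝ) : ℂ) * τ) *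
          ((|remb (e j) ν| : ℝ) : ℂ) = 2 * π * I * τ *
            ((|remb (e j) c| * |remb (e j) ν| : ℝ) : ℂ) by push_cast; ring, habs]
    · rw [if_neg hp, Rat.cast_zero, zero_mul]
      push Not at hp
      obtain ⟨w, hw⟩ := hp
      refine Finset.prod_eq_zero (Finset.mem_univ (e.symm w)) ?_
      rw [hMint, ← hν, ramp_of_nonpos hk1]
      rw [Equiv.apply_symm_apply]
      have h1 := hsc (e.symm w)
      rw [Equiv.apply_symm_apply] at h1
      have hcw := abs_pos.2 (remb_ne_zero w hc)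
      by_contra hcon
      rw [not_le] at hcon
      have h3 := mul_pos hcw hcon
      rw [← h1] at h3
      nlinarith [hss (e.symm w), h3]
  have hval : ∀ v : Fin n → ℤ, H (ofInt v) = ((sgnN c ^ k * coef k c (EJ v : K) : ℚ) : ℂ) *
      trChar ((EJ v : K) * x₀) *
      Complex.exp (2 * π * I * τ * ((Algebra.trace ℚ K (c * (EJ v : K)) : ℚ) : ℂ)) := fun v => by
    obtain ⟨ν, hν⟩ : ∃ ν : K, ν = EJ v := ⟨_, rfl⟩
    have hsgn : (sgnN c : ℂ) = ∏ j, (s j : ℂ) := by
      have h1 : ((sgnN c : ℚ) : ℝ) = ∏ j, s j := by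
        have h2 : (∏ j, s j) * ((Algebra.norm ℚ c : ℚ) : ℝ) =
            ((|Algebra.norm ℚ c| : ℚ) : ℝ) := by
          rw [← prod_abs_remb, ← prod_remb, ← e.prod_comp fun w => remb w c,
            ← e.prod_comp fun w => |remb w c|, ← Finset.prod_mul_distrib,
            Finset.prod_congr rfl fun j _ => hsc j]
        have h3 : ((|Algebra.norm ℚ c| : ℚ) : ℝ) ≠ 0 :=
          Rat.cast_ne_zero.2 (abs_ne_zero.2 (Algebra.norm_ne_zero_iff.2 hc))
        rw [sgnN, Rat.cast_div, div_eq_iff h3, ← h2, ← mul_assoc, ← Finset.prod_mul_distrib,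
          Finset.prod_congr rfl fun j _ => hss j, Finset.prod_const_one, one_mul]
      rw [← Complex.ofReal_prod, ← h1, Complex.ofReal_ratCast]
    rw [hH, Finset.prod_mul_distrib, Finset.prod_mul_distrib, hval₀, ← hν, ← Complex.exp_sum,
      Finset.prod_pow, ← hsgn, trChar, ← Complex.ofReal_ratCast (Algebra.trace ℚ K (ν * x₀)),
      ← sum_remb, ← e.sum_comp fun w => remb w (ν * x₀)]
    push_cast
    rw [Finset.mul_sum, Finset.sum_congr rfl fun j _ => show 2 * (π : ℂ) * I *
        (remb (e j) x₀ : ℝ) * ((M *ᵥ ofInt v) j : ℝ) =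
        2 * π * I * (remb (e j) (ν * x₀) : ℝ) by rw [hMint, ← hν, map_mul]; push_cast; ring]
    ring
  have hsummH : Summable fun v : Fin n → ℤ => H (ofInt v) := by
    obtain ⟨C, -, hC⟩ := hHd.bound
    exact Summable.of_norm_bounded (FA.PackingLP.summable_prodWeight.mul_left C) fun v => hC _
  refine (EJ.hasSum_iff.1 ?_)
  have h := hsummH.hasSum.congr_fun fun v => (hval v).symm
  convert h using 1
  · rfl
  rw [hpois, ← tsum_mul_left, ← ((Equiv.neg (Fin n → ℤ)).trans EI).tsum_eq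
    fun d : ↥(J : Set K) => (factor J k)⁻¹ * eisTerm k τ c (x₀ + d)]
  refine tsum_congr fun m => ?_
  have hneg : ((EI (-m) : K)) = -(EI m : K) := by
    rw [hEI, coe_latticeEquiv, coe_latticeEquiv, ← Finset.sum_neg_distrib]
    exact Finset.sum_congr rfl fun i _ => by rw [Pi.neg_apply, neg_smul]
  show _ * _ = _
  rw [show ((Equiv.neg (Fin n → ℤ)).trans EI) m = EI (-m) from rfl, hneg]
  simp

end FA.KlingenRay

end
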