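import Fermat.Agent.KlingenRay.Character
import Mathlib.NumberTheory.LegendreSymbol.ZModChar

/-!
# An odd character of every totally real field

The character `χ₄ ∘ N` modulo `4` has negative sign at every real place.
-/

set_option autoImplicit false
set_option linter.unusedSectionVars false

noncomputable section

open NumberField InfinitePlace Module
open scoped Classical

namespace FA.KlingenRay

open FA.HeckeCharFE
open FA.Hecke (IsRayChar span_sup_congr)

/-- `χ₄ (N I)`. -/
def normChi (K : Type*) [Field K] [NumberField K] : Ideal (𝓞 K) →* ℂ :=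
  (Int.castRingHom ℂ).toMonoidHom.comp ((ZMod.χ₄).toMonoidHom.comp
    ((Nat.castRingHom (ZMod 4)).toMonoidHom.comp Ideal.absNorm.toMonoidHom))

variable {K : Type*} [Field K] [NumberField K]

theorem normChi_apply (I : Ideal (𝓞 K)) :
    normChi K I = ((ZMod.χ₄ (Ideal.absNorm I : ZMod 4) : ℤ) : ℂ) := rfl

theorem norm_mod_four {x : 𝓞 K} (hx : x - 1 ∈ Ideal.span {(4 : 𝓞 K)}) :
    Algebra.norm ℤ x % 4 = 1 := by
  obtain ⟨y, hy⟩ := Ideal.mem_span_singleton'.1 hx
  obtain rfl : x = 1 + (4 : ℤ) • y := by
    rw [zsmul_eq_mul, Int.cast_ofNat]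
    linear_combination -hy
  have h : ((Algebra.norm ℤ (1 + (4 : ℤ) • y) : ℤ) : ZMod 4) = ((1 : ℤ) : ZMod 4) := by
    rw [Algebra.norm_eq_matrix_det (RingOfIntegers.basis K), map_add, map_one, map_zsmul,
      ← eq_intCast (Int.castRingHom (ZMod 4)), RingHom.map_det, Int.cast_one]
    rw [map_add, map_one, map_zsmul,
      show ((4 : ℤ) • (Int.castRingHom (ZMod 4)).mapMatrix
        (Algebra.leftMulMatrix (RingOfIntegers.basis K) y)) = 0 by
        ext i j
        simp [show (4 : ZMod 4) = 0 from rfl], add_zero, Matrix.det_one]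
  exact (ZMod.intCast_eq_intCast_iff' _ _ 4).1 h

theorem isRayChar_normChi [IsTotallyReal K] : IsRayChar (Ideal.span {(4 : 𝓞 K)}) (normChi K) where
  ne_bot := by simp
  ne_zero_iff I hI := by
    rw [normChi_apply, Int.cast_ne_zero]
    constructor
    · intro h
      have hodd : Ideal.absNorm I % 2 = 1 := by
        rw [ZMod.χ₄_nat_eq_if_mod_four] at h
        by_contra h2
        exact h (if_pos (by omega))
      have hco : IsCoprime (Ideal.absNorm I : ℤ) 4 :=
        Nat.Coprime.isCoprime (n := 4) ((Nat.coprime_pow_right_iff (n := 2) two_pos _ 2).2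
          ((Nat.prime_two.coprime_iff_not_dvd.2 (by omega)).symm))
      obtain ⟨a, b, hab⟩ := hco
      rw [Ideal.eq_top_iff_one, show (1 : 𝓞 K) = (a : 𝓞 K) * (Ideal.absNorm I : 𝓞 K) + b * 4 by
        have := congrArg (Int.cast : ℤ → 𝓞 K) hab
        push_cast at this
        exact this.symm]
      exact Submodule.add_mem_sup (I.mul_mem_left _ (Ideal.absNorm_mem I))
        (Ideal.mul_mem_left _ _ (Ideal.mem_span_singleton_self _))
    · intro h
      obtain ⟨i, hi, j, hj, hij⟩ := Submodule.mem_sup.1 ((Ideal.eq_top_iff_one _).1 h)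
      have h4 : Algebra.norm ℤ i % 4 = 1 :=
        norm_mod_four (by rw [← hij, sub_add_cancel_left]; exact neg_mem hj)
      have hdvd := Ideal.absNorm_dvd_absNorm_of_le ((Ideal.span_singleton_le_iff_mem _).2 hi)
      rw [Ideal.absNorm_span_singleton, ← Int.natCast_dvd] at hdvd
      have hodd : Ideal.absNorm I % 2 = 1 := by
        by_contra h2
        have : (2 : ℤ) ∣ Algebra.norm ℤ i := dvd_trans (by omega) hdvd
        omega
      rw [ZMod.χ₄_nat_eq_if_mod_four, if_neg (by omega)]
      split_ifs <;> norm_num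
  ray x hx0 hx hp := by
    have h4 := norm_mod_four hx
    have hpos' : (0 : ℝ) < ((Algebra.norm ℚ (x : K) : ℚ) : ℝ) :=
      prod_remb (x : K) ▸ Finset.prod_pos fun w _ => hp (FA.SiegelKlingen.remb w)
    have hpos : (0 : ℚ) < Algebra.norm ℚ (x : K) := Rat.cast_pos.1 hpos'
    rw [← Algebra.coe_norm_int, Int.cast_pos] at hpos
    rw [normChi_apply, Ideal.absNorm_span_singleton,
      ZMod.χ₄_nat_one_mod_four (by omega), Int.cast_one]

theorem hasSigns_normChi [IsTotallyReal K] :
    HasSigns (Ideal.span {(4 : 𝓞 K)}) (normChi K) Finset.univ where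
  ray := isRayChar_normChi
  real w _ := IsTotallyReal.isReal w
  sgn x hx0 hx := by
    have h4 := norm_mod_four hx
    rw [normChi_apply, Ideal.absNorm_span_singleton,
      sgnS_parity (Or.inr ⟨odd_one, rfl⟩) (RingOfIntegers.coe_ne_zero_iff.2 hx0), pow_one, sgnN,
      ← Algebra.coe_norm_int, ← Int.cast_abs]
    rcases lt_trichotomy (Algebra.norm ℤ x) 0 with h | h | h
    · rw [ZMod.χ₄_nat_three_mod_four (by omega), abs_of_neg h]
      push_cast
      rw [div_neg, div_self (Int.cast_ne_zero.2 h.ne)]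
    · omega
    · rw [ZMod.χ₄_nat_one_mod_four (by omega), abs_of_pos h, div_self (Int.cast_ne_zero.2 h.ne')]
      norm_num

theorem normChi_rational (σ : ℂ →+* ℂ) : twistChar σ (normChi K) = normChi K :=
  MonoidHom.ext fun _ => map_intCast σ _

end FA.KlingenRay

end
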